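import Mathlib

/-!
# S33, block FO, leaf FO-5 (pure Mathlib): bases of lattices over a PID
-/

set_option autoImplicit false

namespace Fermat.Agent.S33.FO

/-- A finitely generated `O`-submodule (`O` a PID with fraction field `K0`) of a `K0`-vector space is
free, and a basis is `K0`-linearly independent.
Proof: copy `Fermat.Agent.S19.RlBasic_exists_basis` (`Fermat/Agent/S19/A/RlBasic.lean`, 25 lines), with
`Rl ℓ, ℚ` replaced by `O, K0` (`Module.basisOfFiniteTypeTorsionFree'`,
`LinearIndependent.iff_fractionRing`). -/
theorem exists_basis_pid {O K0 W : Type*} [CommRing O] [IsDomain O] [IsPrincipalIdealRing O]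
    [Field K0] [Algebra O K0] [IsFractionRing O K0] [AddCommGroup W] [Module K0 W] [Module O W]
    [IsScalarTower O K0 W] (M : Submodule O W) (hM : M.FG) :
    ∃ (n : ℕ) (b : Module.Basis (Fin n) O M), LinearIndependent K0 (fun i => ((b i : M) : W)) := by
  have : Module.Finite O M := Module.Finite.iff_fg.2 hM
  have : Module.IsTorsionFree O W := by
    refine ⟨fun r hr x y hxy => ?_⟩
    have hr0 : algebraMap O K0 r ≠ 0 := by
      intro h
      exact hr.ne_zero ((IsFractionRing.injective O K0) (by rw [h, map_zero]))
    have h1 : algebraMap O K0 r • x = algebraMap O K0 r • y := by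
      rw [algebraMap_smul, algebraMap_smul]
      exact hxy
    exact smul_right_injective W hr0 h1
  obtain ⟨n, b⟩ := Module.basisOfFiniteTypeTorsionFree' (R := O) (M := M)
  refine ⟨n, b, ?_⟩
  rw [← LinearIndependent.iff_fractionRing O K0]
  exact b.linearIndependent.map' M.subtype (Submodule.ker_subtype M)

end Fermat.Agent.S33.FO
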