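import Fermat.Agent.S33.FO.Frame

/-!
# S33, block FO, leaf FO-1: every character of `C` lies in the order `R` of a frame

(The Cartier dual of a finite flat group scheme is finite, so its points are integral.)
-/

set_option autoImplicit false

namespace Fermat.Agent.S33.FO.Frame

variable {K : Type} [Field K] {A : ValuationSubring K} {C : Type} [AddCommGroup C]
  (F : Frame K A C)

/-- Structure constants of the comultiplication.  Proof: take `ι, a, c` from `F.comul k`, expand
`a l x = ∑ i, repr (a l) i * B i x` (`F.apply_eq_sum`), same for `c l y`;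
`γ i j := ∑ l, repr (a l) i * repr (c l) j`. -/
theorem exists_comul_const (k : Fin F.n) : ∃ γ : Fin F.n → Fin F.n → K, (∀ i j, γ i j ∈ A) ∧
    ∀ x y, F.B k (x + y) = ∑ i, ∑ j, γ i j * (F.B i x * F.B j y) := by
  obtain ⟨ι, _, a, c, ha, hc, h⟩ := F.comul k
  refine ⟨fun i j => ∑ l, F.B.repr (a l) i * F.B.repr (c l) j,
    fun i j => sum_mem fun l _ => MulMemClass.mul_mem (ha l i) (hc l j), fun x y => ?_⟩
  rw [h x y]
  have e1 : ∀ l, a l x * c l y = ∑ i, ∑ j,
      F.B.repr (a l) i * F.B.repr (c l) j * (F.B i x * F.B j y) := by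
    intro l
    rw [F.apply_eq_sum (a l) x, F.apply_eq_sum (c l) y, Finset.sum_mul_sum]
    exact Finset.sum_congr rfl fun i _ => Finset.sum_congr rfl fun j _ => by ring
  simp_rw [e1]
  rw [Finset.sum_comm]
  refine Finset.sum_congr rfl fun i _ => ?_
  rw [Finset.sum_comm]
  exact Finset.sum_congr rfl fun j _ => by rw [Finset.sum_mul]

/-- The functions `(x, y) ↦ B i x * B j y` are linearly independent.  Proof: fix `y`; the function
`x ↦ ∑ i, (∑ j, c i j * B j y) * B i x` is `0`, so by `F.repr_eq_of_apply` (applied to `f = 0`)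
`∑ j, c i j * B j y = 0` for all `i` and `y`; once more. -/
theorem eq_zero_of_box (c : Fin F.n → Fin F.n → K)
    (h : ∀ x y, ∑ i, ∑ j, c i j * (F.B i x * F.B j y) = 0) (i j : Fin F.n) : c i j = 0 := by
  have h1 : ∀ (y : C) (i : Fin F.n), ∑ j, c i j * F.B j y = 0 := by
    intro y i
    have h2 := F.repr_eq_of_apply (f := 0) (a := fun i => ∑ j, c i j * F.B j y) (fun x => by
      rw [Pi.zero_apply, ← h x y]
      refine Finset.sum_congr rfl fun i _ => ?_
      rw [Finset.sum_mul]
      exact Finset.sum_congr rfl fun j _ => by ring) i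
    rw [map_zero, Finsupp.zero_apply] at h2
    exact h2.symm
  have h3 := F.repr_eq_of_apply (f := 0) (a := fun j => c i j) (fun y => by
    rw [Pi.zero_apply, h1 y i]) j
  rw [map_zero, Finsupp.zero_apply] at h3
  exact h3.symm

/-- **Characters are integral.**  Let `z i = repr w i`.  From `w (x + y) = w x * w y`,
`exists_comul_const` (`γ k i j`) and `eq_zero_of_box`: `z i * z j = ∑ k, z k * γ k i j`.
If `F.n = 0` there is nothing to prove.  Otherwise choose `i₀` with `A.valuation (z i₀)` maximal
(`Finset.exists_max_image`).  If `z i₀ = 0` all `z i` have valuation `0`, so are `0 ∈ A`.  Otherwise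
`z i₀ = ∑ k, (z k / z i₀) * γ k i₀ i₀ ∈ A` since `z k / z i₀ ∈ A` (valuation `≤ 1`), and then
`v (z i) ≤ v (z i₀) ≤ 1` for all `i` (`A.valuation_le_one_iff`). -/
theorem char_mem_R (w : C → K) (hw : ∀ x y, w (x + y) = w x * w y) : w ∈ F.R := by
  choose γ hγA hγ using F.exists_comul_const
  have hz : ∀ i j, F.B.repr w i * F.B.repr w j = ∑ k, F.B.repr w k * γ k i j := by
    intro i j
    rw [← sub_eq_zero]
    refine F.eq_zero_of_box (fun i j => F.B.repr w i * F.B.repr w j - ∑ k, F.B.repr w k * γ k i j)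
      (fun x y => ?_) i j
    have e1 : w x * w y = ∑ i, ∑ j, F.B.repr w i * F.B.repr w j * (F.B i x * F.B j y) := by
      rw [F.apply_eq_sum w x, F.apply_eq_sum w y, Finset.sum_mul_sum]
      exact Finset.sum_congr rfl fun i _ => Finset.sum_congr rfl fun j _ => by ring
    have e2 : w (x + y) = ∑ i, ∑ j, (∑ k, F.B.repr w k * γ k i j) * (F.B i x * F.B j y) := by
      rw [F.apply_eq_sum w (x + y)]
      simp_rw [hγ, Finset.mul_sum, Finset.sum_mul]
      rw [Finset.sum_comm]
      refine Finset.sum_congr rfl fun i _ => ?_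
      rw [Finset.sum_comm]
      exact Finset.sum_congr rfl fun j _ => Finset.sum_congr rfl fun k _ => by ring
    simp_rw [sub_mul, Finset.sum_sub_distrib]
    rw [← e1, ← e2, hw, sub_self]
  rw [mem_R_iff]
  rcases isEmpty_or_nonempty (Fin F.n) with hn | hn
  · intro k
    exact hn.elim k
  obtain ⟨i₀, -, hmax⟩ := Finset.exists_max_image Finset.univ
    (fun i => A.valuation (F.B.repr w i)) Finset.univ_nonempty
  by_cases h0 : F.B.repr w i₀ = 0
  · intro k
    have h1 := hmax k (Finset.mem_univ k)
    rw [h0, map_zero, le_zero_iff, map_eq_zero] at h1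
    rw [h1]
    exact A.zero_mem
  · have hv0 : 0 < A.valuation (F.B.repr w i₀) :=
      zero_lt_iff.2 ((Valuation.ne_zero_iff _).2 h0)
    have hdiv : ∀ k, F.B.repr w k / F.B.repr w i₀ ∈ A := by
      intro k
      rw [← A.valuation_le_one_iff, map_div₀]
      exact (div_le_one₀ hv0).2 (hmax k (Finset.mem_univ k))
    have hi₀ : F.B.repr w i₀ ∈ A := by
      have e : F.B.repr w i₀ = ∑ k, F.B.repr w k / F.B.repr w i₀ * γ k i₀ i₀ := by
        have h1 := hz i₀ i₀
        have h2 : F.B.repr w i₀ = (F.B.repr w i₀ * F.B.repr w i₀) / F.B.repr w i₀ := by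
          field_simp
        conv_lhs => rw [h2, h1, Finset.sum_div]
        exact Finset.sum_congr rfl fun k _ => by ring
      rw [e]
      exact sum_mem fun k _ => MulMemClass.mul_mem (hdiv k) (hγA k i₀ i₀)
    intro k
    rw [← A.valuation_le_one_iff]
    exact (hmax k (Finset.mem_univ k)).trans ((A.valuation_le_one_iff _).2 hi₀)

end Fermat.Agent.S33.FO.Frame
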