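import Fermat.Agent.S33.FO.Galois

/-!
# S33, block FO, leaf FO-2: `g ≡ E` modulo `𝔪_A R`
-/

set_option autoImplicit false

namespace Fermat.Agent.S33.FO.Frame

variable {K : Type} [Field K] {A : ValuationSubring K} {C : Type} [AddCommGroup C]
  {F : Frame K A C} {T : Type} {s : T → K →+* K} {t : T → C → C} {p : ℕ} {ζ : K}

/-- Pure ring theory.  `a (c - 1) = 1 + b p` for suitable naturals `a, b`
(`Nat.exists_mul_mod_eq_one_of_coprime` or `Nat.exists_mul_emod_eq_one_of_coprime`), `c - 1 ≥ 1`.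
`g ^ (c - 1) * g ^ p = g ^ c * g ^ (p - 1) = g * g ^ (p - 1) = g ^ p = E`, and
`g ^ (c - 1) * E = g ^ (c - 1)` (as `c - 1 ≥ 1` and `g * E = g`), so `g ^ (c - 1) = E`; hence
`E = E ^ a = g ^ (a (c - 1)) = g * (g ^ p) ^ b = g * E ^ b = g`  (`E * E = E`: `E = g ^ p`,
`g ^ p * E = g ^ p`). -/
theorem eq_of_pow_eq {S : Type*} [CommRing S] {g E : S} {p c : ℕ} (hp : p.Prime) (hc1 : 1 < c)
    (hcp : c < p) (hgE : g * E = g) (hgp : g ^ p = E) (hgc : g ^ c = g) : g = E := by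
  have hp1 : 1 < p := hp.one_lt
  -- `g ^ k * E = g ^ k` for `k ≥ 1`
  have hpowE : ∀ k : ℕ, g ^ (k + 1) * E = g ^ (k + 1) := by
    intro k
    rw [pow_succ, mul_assoc, hgE]
  have hEE : E * E = E := by
    have h1 := hpowE (p - 1)
    rw [Nat.sub_add_cancel hp1.le, hgp] at h1
    exact h1
  have hEpow : ∀ k : ℕ, E ^ (k + 1) = E := by
    intro k
    induction k with
    | zero => rw [zero_add, pow_one]
    | succ k ih => rw [pow_succ, ih, hEE]
  have hgEpow : ∀ k : ℕ, g * E ^ k = g := by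
    intro k
    induction k with
    | zero => rw [pow_zero, mul_one]
    | succ k ih => rw [pow_succ, ← mul_assoc, ih, hgE]
  -- `g ^ (c - 1) = E`
  have h1 : g ^ (c - 1) * g ^ p = E := by
    have e1 : c - 1 + p = c + (p - 1) := by omega
    rw [← pow_add, e1, pow_add, hgc, ← pow_succ', Nat.sub_add_cancel hp1.le, hgp]
  have h2 : g ^ (c - 1) * E = g ^ (c - 1) := by
    have h3 := hpowE (c - 2)
    have e2 : c - 2 + 1 = c - 1 := by omega
    rwa [e2] at h3
  have h3 : g ^ (c - 1) = E := by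
    rw [← h2]
    rw [hgp] at h1
    exact h1
  -- Bezout
  have hcop : Nat.Coprime (c - 1) p := by
    rw [Nat.coprime_comm]
    refine (Nat.Prime.coprime_iff_not_dvd hp).2 ?_
    intro hdvd
    have := Nat.le_of_dvd (by omega) hdvd
    omega
  obtain ⟨a, -, ha⟩ := Nat.exists_mul_mod_eq_one_of_coprime hcop hp1
  have hab : (c - 1) * a = 1 + p * ((c - 1) * a / p) := by
    have := Nat.div_add_mod ((c - 1) * a) p
    rw [ha] at this
    omega
  have ha0 : a ≠ 0 := by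
    rintro rfl
    rw [mul_zero] at ha
    simp at ha
  obtain ⟨a', rfl⟩ := Nat.exists_eq_succ_of_ne_zero ha0
  have h4 : g ^ ((c - 1) * (a' + 1)) = E := by
    rw [pow_mul, h3, hEpow]
  rw [Nat.succ_eq_add_one] at hab
  rw [hab, pow_add, pow_one, pow_mul, hgp, hgEpow] at h4
  exact h4

/-- **The congruence.**  Take `τ` with `s τ ζ ≠ ζ` (`hZ.moves`); `s τ ζ = ζ ^ c` with `1 < c < p`
(`hZ.prim.eq_pow_of_pow_eq_one`; `c ≠ 0` since `s τ ζ ≠ 1` by injectivity of `s τ`).  Every value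
`g x` is `0` or a power of `ζ`, so `s τ (g x) = g x ^ c`.  By `F.repr_twist` (with `f = g`,
`f' = g ^ c`, using `hgt`) `repr (g ^ c) k = s τ (repr g k)`, so `repr (g ^ c - g) k ∈ A.nonunits`
by `hI.inert`: `g ^ c - g ∈ F.M`.  Apply `eq_of_pow_eq` in the quotient ring `F.R ⧸ F.M`
(`g * E = g`, `g ^ p = E` hold pointwise by `hEg`), and `Ideal.Quotient.eq`. -/
theorem repr_sub_mem_nonunits (hI : F.Inertial s t) (hZ : Cyclo A s p ζ) {E g : C → K}
    (hE : E ∈ F.R) (hg : g ∈ F.R)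
    (hEg : ∀ x, (E x = 0 ∧ g x = 0) ∨ (E x = 1 ∧ g x ^ p = 1))
    (hgt : ∀ τ x, g (t τ x) = g x) (k : Fin F.n) : F.B.repr (g - E) k ∈ A.nonunits := by
  have hp : p.Prime := hZ.prime
  have : NeZero p := ⟨hp.ne_zero⟩
  obtain ⟨τ, hτ⟩ := hZ.moves
  have hζp : (s τ ζ) ^ p = 1 := by rw [← map_pow, hZ.prim.pow_eq_one, map_one]
  obtain ⟨c, hcp, hc⟩ := hZ.prim.eq_pow_of_pow_eq_one hζp
  have hc0 : c ≠ 0 := by
    rintro rfl
    rw [pow_zero] at hc
    have h1 : s τ ζ = s τ 1 := by rw [map_one, ← hc]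
    exact hZ.prim.ne_one hp.one_lt ((s τ).injective h1)
  have hc1 : c ≠ 1 := by
    rintro rfl
    rw [pow_one] at hc
    exact hτ hc.symm
  have hc1' : 1 < c := by omega
  -- `s τ (g x) = g x ^ c`
  have hsg : ∀ x, s τ (g x) = g x ^ c := by
    intro x
    rcases hEg x with ⟨-, h0⟩ | ⟨-, h1⟩
    · rw [h0, map_zero, zero_pow hc0]
    · obtain ⟨i, -, hi⟩ := hZ.prim.eq_pow_of_pow_eq_one h1
      rw [← hi, map_pow, ← hc, ← pow_mul, ← pow_mul, mul_comm]
  have htw : ∀ k, F.B.repr (g ^ c) k = s τ (F.B.repr g k) := by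
    intro k
    refine F.repr_twist (s τ) (t τ) (hI.surj τ) (hI.equiv τ) (f := g) (f' := g ^ c) ?_ k
    intro x
    rw [Pi.pow_apply, hgt, hsg]
  let g' : F.R := ⟨g, hg⟩
  let E' : F.R := ⟨E, hE⟩
  have hM : g' ^ c - g' ∈ F.M := by
    rw [mem_M_iff]
    intro k
    have e : ((g' ^ c - g' : F.R) : C → K) = g ^ c - g := rfl
    rw [e, map_sub, Finsupp.sub_apply, htw]
    exact hI.inert τ _ (hg k)
  have hgE : g' * E' = g' := by
    apply Subtype.ext
    funext x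
    show g x * E x = g x
    rcases hEg x with ⟨h0, h1⟩ | ⟨h0, -⟩
    · rw [h0, h1, mul_zero]
    · rw [h0, mul_one]
  have hgp : g' ^ p = E' := by
    apply Subtype.ext
    funext x
    show g x ^ p = E x
    rcases hEg x with ⟨h0, h1⟩ | ⟨h0, h1⟩
    · rw [h0, h1, zero_pow hp.ne_zero]
    · rw [h0, h1]
  have hq : Ideal.Quotient.mk F.M g' = Ideal.Quotient.mk F.M E' := by
    refine eq_of_pow_eq hp hc1' hcp ?_ ?_ ?_
    · rw [← map_mul, hgE]
    · rw [← map_pow, hgp]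
    · rw [← map_pow]
      exact Ideal.Quotient.eq.2 hM
  have hfin := Ideal.Quotient.eq.1 hq
  rw [mem_M_iff] at hfin
  exact hfin k

end Fermat.Agent.S33.FO.Frame
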