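import Fermat.Agent.S36R.K0.DVRL
import Fermat.Agent.S19.A.RlBasic

/-!
# S33, block FO, leaf FO-14: the connected component of a Hopf order of functions contains `(I - 1) Q`
-/

set_option autoImplicit false

namespace Fermat.Agent.S33.FO

open Fermat.Agent.S19 Fermat.Agent.S36R

variable {p : ℕ} {A : ValuationSubring Qb} {Q : Type} [AddCommGroup Q] [DistribMulAction GQ Q]
  {H : Subalgebra (Rl p) (Q → Qb)}

/-- The values of the functions of `H` are integral.  Proof: `h` is integral over `Rl p` because `H` is a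
subalgebra which is a finitely generated module (`IsIntegral.of_mem_of_fg` / `isIntegral_of_mem_of_FG`);
apply `Pi.evalAlgHom` (`IsIntegral.map`); `A` is integrally closed in `Qb` and contains the image of `Rl p`
(`S19.algebraMap_Rl_mem A hA' r`, `hA' : (p : Qb)⁻¹ ∉ A` from `hA`): evaluate the monic equation, or use
`ValuationSubring` integral closedness (`A.valuation`-argument: `Valuation.mem_of_integral`, or
`IsIntegrallyClosed A` + `IsIntegral.tower_top`). -/
theorem apply_mem (hp : p.Prime) (hA : A.LiesOverPrime p) (hH : IsFunOrder p Q H) {h : Q → Qb}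
    (hh : h ∈ H) (x : Q) : h x ∈ A := by
  have : Fact p.Prime := ⟨hp⟩
  have hv1 : A.valuation (p : Qb) < 1 := (ValuationSubring.mem_nonunits_iff A).1 hA
  have hp0 : (p : Qb) ≠ 0 := by exact_mod_cast hp.ne_zero
  have hA' : (p : Qb)⁻¹ ∉ A := by
    rw [← A.valuation_le_one_iff, map_inv₀, not_le,
      one_lt_inv₀ (zero_lt_iff.2 ((Valuation.ne_zero_iff _).2 hp0))]
    exact hv1
  have hint : IsIntegral (Rl p) h := IsIntegral.of_mem_of_fg H hH.fg h hh
  have hint2 : IsIntegral (Rl p) (h x) := hint.map (Pi.evalAlgHom (Rl p) (fun _ : Q => Qb) x)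
  obtain ⟨P, hP, hP0⟩ := hint2
  let φ : Rl p →+* A :=
    (algebraMap (Rl p) Qb).codRestrict A.toSubring (fun r => algebraMap_Rl_mem A hA' r)
  have hint3 : IsIntegral A (h x) := by
    refine ⟨P.map φ, hP.map φ, ?_⟩
    rw [Polynomial.eval₂_map]
    exact hP0
  obtain ⟨y, hy⟩ := (IsIntegrallyClosed.isIntegral_iff (R := A) (K := Qb)).mp hint3
  rw [← hy]
  exact y.2

/-- Congruent arguments give congruent sums: if `x ≡ x'` and `y ≡ y'` (no function of `H` separates them modulo
`𝔪_A`) then `x + y ≡ x' + y'`.  Proof: `hH.comul`,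
`a x * c y - a x' * c y' = (a x - a x') * c y + a x' * (c y - c y')`, `apply_mem`. -/
theorem conn_add_congr (hp : p.Prime) (hA : A.LiesOverPrime p) (hH : IsFunOrder p Q H)
    {x x' y y' : Q} (hx : ∀ h ∈ H, h x - h x' ∈ A.nonunits) (hy : ∀ h ∈ H, h y - h y' ∈ A.nonunits) :
    ∀ h ∈ H, h (x + y) - h (x' + y') ∈ A.nonunits := by
  intro h hh
  obtain ⟨n, a, c, ha, hc, hsum⟩ := hH.comul h hh
  rw [hsum, hsum, ← Finset.sum_sub_distrib, ValuationSubring.mem_nonunits_iff]
  refine Valuation.map_sum_lt _ one_ne_zero fun i _ => ?_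
  have h1 : a i x * c i y - a i x' * c i y' =
      (a i x - a i x') * c i y + a i x' * (c i y - c i y') := by ring
  rw [h1]
  refine Valuation.map_add_lt _ ?_ ?_
  · rw [map_mul]
    exact lt_of_le_of_lt
      (mul_le_of_le_one_right' ((A.valuation_le_one_iff _).2 (apply_mem hp hA hH (hc i) y)))
      ((ValuationSubring.mem_nonunits_iff A).1 (hx _ (ha i)))
  · rw [map_mul]
    exact lt_of_le_of_lt
      (mul_le_of_le_one_left' ((A.valuation_le_one_iff _).2 (apply_mem hp hA hH (ha i) x')))
      ((ValuationSubring.mem_nonunits_iff A).1 (hy _ (hc i)))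

/-- `τ x - x` lies in the connected component.  Proof: `conn_add_congr` with `(τ x, x)` and `(-x, -x)`:
`h (τ x) - h x = τ (h x) - h x ∈ 𝔪_A` (`hH.equivariant`, `K0L.inertia_sub_mem_nonunits`, `apply_mem`),
`x + -x = 0`. -/
theorem conn_smul_sub (hp : p.Prime) (hA : A.LiesOverPrime p) (hH : IsFunOrder p Q H)
    {τ : GQ} (hτ : τ ∈ A.inertiaSubgroupIn ℚ) (x : Q) :
    ∀ h ∈ H, h (τ • x - x) - h 0 ∈ A.nonunits := by
  have h1 := conn_add_congr hp hA hH (x := τ • x) (x' := x) (y := -x) (y' := -x)
    (fun h hh => by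
      rw [hH.equivariant h hh]
      exact K0L.inertia_sub_mem_nonunits A hp hA hτ (apply_mem hp hA hH hh x))
    (fun h _ => by
      rw [sub_self, ValuationSubring.mem_nonunits_iff, map_zero]
      exact zero_lt_one)
  rw [add_neg_cancel, ← sub_eq_add_neg] at h1
  exact h1

/-- `(I - 1) C`. -/
def augI (A : ValuationSubring Qb) (C : AddSubgroup Q) : AddSubgroup Q :=
  AddSubgroup.closure {y | ∃ τ ∈ A.inertiaSubgroupIn ℚ, ∃ x ∈ C, y = τ • x - x}

/-- `(I - 1) Q` lies in the connected component.  Proof: since `Q` is finite the closure is the closure as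
an additive submonoid (`AddSubgroup.closure_toAddSubmonoid_of_finite`), then
`AddSubmonoid.closure_induction` with `conn_smul_sub` and `conn_add_congr` (`x' = y' = 0`). -/
theorem conn_of_mem_augI [Finite Q] (hp : p.Prime) (hA : A.LiesOverPrime p) (hH : IsFunOrder p Q H)
    {x : Q} (hx : x ∈ augI A (⊤ : AddSubgroup Q)) : ∀ h ∈ H, h x - h 0 ∈ A.nonunits := by
  have key : (∀ h ∈ H, h x - h 0 ∈ A.nonunits) ∧ (∀ h ∈ H, h (-x) - h 0 ∈ A.nonunits) := by
    unfold augI at hx
    induction hx using AddSubgroup.closure_induction with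
    | mem y hy =>
      obtain ⟨τ, hτ, z, -, rfl⟩ := hy
      refine ⟨conn_smul_sub hp hA hH hτ z, ?_⟩
      have h1 := conn_smul_sub hp hA hH hτ (-z)
      have h2 : τ • (-z) - (-z) = -(τ • z - z) := by
        rw [smul_neg]; abel
      rwa [h2] at h1
    | zero =>
      have h0 : ∀ h ∈ H, h (0 : Q) - h 0 ∈ A.nonunits := fun h _ => by
        rw [sub_self, ValuationSubring.mem_nonunits_iff, map_zero]
        exact zero_lt_one
      exact ⟨h0, by rw [neg_zero]; exact h0⟩
    | add a b _ _ ha hb =>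
      constructor
      · have := conn_add_congr hp hA hH ha.1 hb.1
        rwa [add_zero] at this
      · have := conn_add_congr hp hA hH ha.2 hb.2
        rwa [add_zero, ← neg_add] at this
    | neg a _ ha =>
      exact ⟨ha.2, by rw [neg_neg]; exact ha.1⟩
  exact key.1

end Fermat.Agent.S33.FO
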