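import Mathlib

/-!
# S33, block FO, leaf FO-6 (pure Mathlib): Galois descent for linear independence of equivariant functions
-/

set_option autoImplicit false

namespace Fermat.Agent.S33.FO

/-- The induction behind `linearIndependent_of_twist`. -/
theorem Descent_twist_aux {K0 L X ι T : Type*} [Field K0] [Field L] [Algebra K0 L]
    (s : T → L →+* L) (t : T → X → X) (ht : ∀ τ, Function.Surjective (t τ))
    (hfix : ∀ a : L, (∀ τ, s τ a = a) → ∃ q : K0, algebraMap K0 L q = a)
    (b : ι → X → L) (hb : ∀ i τ x, b i (t τ x) = s τ (b i x)) (h : LinearIndependent K0 b)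
    (S : Finset ι) : ∀ c : ι → L, ∑ i ∈ S, c i • b i = 0 → ∀ i ∈ S, c i = 0 := by
  classical
  induction S using Finset.induction_on with
  | empty =>
    intro c _ i hi
    simp at hi
  | insert a S has ih =>
    intro c hc
    rw [Finset.sum_insert has] at hc
    by_cases hca : c a = 0
    · rw [hca, zero_smul, zero_add] at hc
      intro i hi
      rcases Finset.mem_insert.mp hi with rfl | hi
      · exact hca
      · exact ih c hc i hi
    · exfalso
      set l : ι → L := fun i => - c i / c a with hl
      have hba : b a = ∑ i ∈ S, l i • b i := by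
        have h1 : c a • b a = - ∑ i ∈ S, c i • b i := eq_neg_of_add_eq_zero_left hc
        have h2 : b a = (c a)⁻¹ • (c a • b a) := by
          rw [smul_smul, inv_mul_cancel₀ hca, one_smul]
        rw [h2, h1, smul_neg, Finset.smul_sum, ← Finset.sum_neg_distrib]
        refine Finset.sum_congr rfl fun i _ => ?_
        rw [smul_smul, ← neg_smul]
        congr 1
        simp only [hl]
        field_simp
      have hbax : ∀ x : X, b a x = ∑ i ∈ S, l i * b i x := by
        intro x
        rw [hba]
        simp [Finset.sum_apply]
      have hfix' : ∀ i ∈ S, ∀ τ : T, s τ (l i) = l i := by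
        intro i hi τ
        have hrel : ∑ i ∈ S, (s τ (l i) - l i) • b i = 0 := by
          funext y
          obtain ⟨x, rfl⟩ := ht τ y
          have h1 : b a (t τ x) = ∑ i ∈ S, l i * b i (t τ x) := hbax _
          have h2 : b a (t τ x) = ∑ i ∈ S, s τ (l i) * b i (t τ x) := by
            rw [hb, hbax x, map_sum]
            refine Finset.sum_congr rfl fun i _ => ?_
            rw [map_mul, hb]
          simp only [Finset.sum_apply, Pi.smul_apply, smul_eq_mul, sub_mul,
            Finset.sum_sub_distrib, Pi.zero_apply]
          rw [← h1, ← h2, sub_self]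
        exact sub_eq_zero.mp (ih _ hrel i hi)
      choose! q hq using fun i (hi : i ∈ S) => hfix (l i) (hfix' i hi)
      have hrelQ : ∑ i ∈ insert a S, (if i = a then (1 : K0) else - q i) • b i = 0 := by
        rw [Finset.sum_insert has, if_pos rfl, one_smul]
        have h3 : ∑ i ∈ S, (if i = a then (1 : K0) else - q i) • b i = - ∑ i ∈ S, l i • b i := by
          rw [← Finset.sum_neg_distrib]
          refine Finset.sum_congr rfl fun i hi => ?_
          have hia : i ≠ a := fun h => has (h ▸ hi)
          rw [if_neg hia, neg_smul, ← hq i hi, algebraMap_smul]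
        rw [h3, ← hba, add_neg_cancel]
      have h4 := linearIndependent_iff'.mp h (insert a S) _ hrelQ a (Finset.mem_insert_self a S)
      rw [if_pos rfl] at h4
      exact one_ne_zero h4

/-- `L` a field, `(s τ, t τ)` a family of ring endomorphisms of `L` and surjective self-maps of `X`;
`K0 → L` a field whose image contains all elements fixed by all `s τ`.  Equivariant functions
`X → L` which are linearly independent over `K0` are linearly independent over `L`.
Proof: copy `Fermat.Agent.S19.Descent_aux` + `linearIndependent_of_equivariant`
(`Fermat/Agent/S19/A/Descent.lean`, 70 lines): replace `σ • x` by `t τ x`, `σ` by `s τ`, the use of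
`smul_inv_smul` by `ht τ`, and `mem_range_of_fixed` by `hfix`. -/
theorem linearIndependent_of_twist {K0 L X ι T : Type*} [Field K0] [Field L] [Algebra K0 L]
    (s : T → L →+* L) (t : T → X → X) (ht : ∀ τ, Function.Surjective (t τ))
    (hfix : ∀ a : L, (∀ τ, s τ a = a) → ∃ q : K0, algebraMap K0 L q = a)
    (b : ι → X → L) (hb : ∀ i τ x, b i (t τ x) = s τ (b i x)) (h : LinearIndependent K0 b) :
    LinearIndependent L b :=
  linearIndependent_iff'.mpr fun S c hc i hi =>
    Descent_twist_aux s t ht hfix b hb h S c hc i hi

end Fermat.Agent.S33.FO
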