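import Mathlib

/-!
# S33, block FO (flat => no unramified quotient in the connected part): framed orders

`K` a field, `A` a valuation subring, `C` a finite abelian group.  A `Frame K A C` is a `K`-basis
`B` of the algebra of functions `C → K` whose `A`-span `R` is a subring, stable under the
comultiplication `f ↦ ((x, y) ↦ f (x + y))`.  (In the application `R` is the `A`-span of the
restrictions to `C` of a Hopf order of functions, and `B` is a basis of the span over the ring of
integers of the maximal unramified extension, so that `B` is equivariant under inertia.)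
-/

set_option autoImplicit false

namespace Fermat.Agent.S33.FO

/-- A framed order of functions on `C`. -/
structure Frame (K : Type) [Field K] (A : ValuationSubring K) (C : Type) [AddCommGroup C] where
  /-- the rank -/
  n : ℕ
  /-- the basis -/
  B : Module.Basis (Fin n) K (C → K)
  one_mem : ∀ k, B.repr 1 k ∈ A
  mul_mem : ∀ i j k, B.repr (B i * B j) k ∈ A
  comul : ∀ k, ∃ (ι : Type) (_ : Fintype ι) (a c : ι → C → K),
    (∀ l i, B.repr (a l) i ∈ A) ∧ (∀ l i, B.repr (c l) i ∈ A) ∧
    ∀ x y, B k (x + y) = ∑ l, a l x * c l y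

namespace Frame

variable {K : Type} [Field K] {A : ValuationSubring K} {C : Type} [AddCommGroup C]
  (F : Frame K A C)

theorem eq_sum (f : C → K) : f = ∑ k, F.B.repr f k • F.B k := (F.B.sum_repr f).symm

theorem apply_eq_sum (f : C → K) (x : C) : f x = ∑ k, F.B.repr f k * F.B k x := by
  conv_lhs => rw [F.eq_sum f]
  simp

theorem repr_sum_smul (a : Fin F.n → K) (k : Fin F.n) : F.B.repr (∑ i, a i • F.B i) k = a k := by
  classical
  simp [Finsupp.single_apply]

/-- uniqueness of the coordinates -/
theorem repr_eq_of_apply {f : C → K} {a : Fin F.n → K} (h : ∀ x, f x = ∑ i, a i * F.B i x)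
    (k : Fin F.n) : F.B.repr f k = a k := by
  have : f = ∑ i, a i • F.B i := by
    funext x
    rw [h x]
    simp
  rw [this, repr_sum_smul]

theorem repr_mul (f g : C → K) (k : Fin F.n) :
    F.B.repr (f * g) k = ∑ i, ∑ j, F.B.repr f i * F.B.repr g j * F.B.repr (F.B i * F.B j) k := by
  conv_lhs => rw [F.eq_sum f, F.eq_sum g, Finset.sum_mul_sum]
  simp only [smul_mul_smul_comm, map_sum, map_smul, Finsupp.coe_finsetSum, Finset.sum_apply,
    Finsupp.smul_apply, smul_eq_mul]

/-- The order: functions with coordinates in `A`. -/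
def R : Subring (C → K) where
  carrier := {f | ∀ k, F.B.repr f k ∈ A}
  mul_mem' := by
    intro f g hf hg k
    rw [repr_mul]
    exact sum_mem fun i _ => sum_mem fun j _ => MulMemClass.mul_mem (MulMemClass.mul_mem (hf i) (hg j)) (F.mul_mem i j k)
  one_mem' := F.one_mem
  add_mem' := by
    intro f g hf hg k
    rw [map_add, Finsupp.add_apply]
    exact add_mem (hf k) (hg k)
  zero_mem' := by
    intro k
    rw [map_zero, Finsupp.zero_apply]
    exact A.zero_mem
  neg_mem' := by
    intro f hf k
    rw [map_neg, Finsupp.neg_apply]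
    exact neg_mem (hf k)

theorem mem_R_iff {f : C → K} : f ∈ F.R ↔ ∀ k, F.B.repr f k ∈ A := Iff.rfl

theorem B_mem_R (i : Fin F.n) : F.B i ∈ F.R := by
  classical
  intro k
  rw [F.B.repr_self, Finsupp.single_apply]
  split_ifs
  · exact A.one_mem
  · exact A.zero_mem

theorem smul_mem_R {a : K} (ha : a ∈ A) {f : C → K} (hf : f ∈ F.R) : a • f ∈ F.R := by
  intro k
  rw [map_smul, Finsupp.smul_apply, smul_eq_mul]
  exact MulMemClass.mul_mem ha (hf k)

theorem nonunits_add {a b : K} (ha : a ∈ A.nonunits) (hb : b ∈ A.nonunits) :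
    a + b ∈ A.nonunits := by
  rw [ValuationSubring.mem_nonunits_iff] at *
  exact lt_of_le_of_lt (A.valuation.map_add a b) (max_lt ha hb)

theorem nonunits_mul_left {a b : K} (ha : a ∈ A) (hb : b ∈ A.nonunits) : a * b ∈ A.nonunits := by
  rw [ValuationSubring.mem_nonunits_iff] at *
  rw [map_mul]
  exact mul_lt_one_of_nonneg_of_lt_one_right ((A.valuation_le_one_iff a).2 ha) zero_le hb

theorem nonunits_sum {ι : Type*} (s : Finset ι) (f : ι → K) (h : ∀ i ∈ s, f i ∈ A.nonunits) :
    ∑ i ∈ s, f i ∈ A.nonunits := by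
  rw [ValuationSubring.mem_nonunits_iff]
  exact A.valuation.map_sum_lt one_ne_zero
    fun i hi => (ValuationSubring.mem_nonunits_iff A).1 (h i hi)

theorem nonunits_mem {a : K} (ha : a ∈ A.nonunits) : a ∈ A :=
  (A.valuation_le_one_iff a).1 ((ValuationSubring.mem_nonunits_iff A).1 ha).le

/-- `𝔪_A R` as an ideal of `R`. -/
def M : Ideal F.R where
  carrier := {f | ∀ k, F.B.repr (f : C → K) k ∈ A.nonunits}
  add_mem' := by
    intro f g hf hg k
    rw [Subring.coe_add, map_add, Finsupp.add_apply]
    exact nonunits_add (hf k) (hg k)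
  zero_mem' := by
    intro k
    rw [Subring.coe_zero, map_zero, Finsupp.zero_apply, ValuationSubring.mem_nonunits_iff, map_zero]
    exact zero_lt_one
  smul_mem' := by
    intro r f hf k
    rw [smul_eq_mul, Subring.coe_mul, repr_mul]
    refine nonunits_sum _ _ fun i _ => nonunits_sum _ _ fun j _ => ?_
    rw [mul_assoc, mul_comm (F.B.repr (f : C → K) j), ← mul_assoc]
    exact nonunits_mul_left (MulMemClass.mul_mem (r.2 i) (F.mul_mem i j k)) (hf j)

theorem mem_M_iff {f : F.R} : f ∈ F.M ↔ ∀ k, F.B.repr (f : C → K) k ∈ A.nonunits := Iff.rfl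

/-- Two points with the same reduction are not separated modulo `𝔪_A` by `R`. -/
theorem eval_sub_mem {f : C → K} (hf : f ∈ F.R) {x y : C}
    (hxy : ∀ k, F.B k x - F.B k y ∈ A.nonunits) : f x - f y ∈ A.nonunits := by
  rw [F.apply_eq_sum f x, F.apply_eq_sum f y, ← Finset.sum_sub_distrib]
  refine nonunits_sum _ _ fun k _ => ?_
  rw [← mul_sub]
  exact nonunits_mul_left (hf k) (hxy k)

/-- **Semilinear twist.**  If `B` is equivariant for `(s, t)` then the coordinates of the twisted
function are the twisted coordinates. -/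
theorem repr_twist (s : K →+* K) (t : C → C) (ht : Function.Surjective t)
    (hB : ∀ i x, F.B i (t x) = s (F.B i x)) {f f' : C → K} (h : ∀ x, f' (t x) = s (f x))
    (k : Fin F.n) : F.B.repr f' k = s (F.B.repr f k) := by
  refine F.repr_eq_of_apply (a := fun i => s (F.B.repr f i)) (fun y => ?_) k
  obtain ⟨x, rfl⟩ := ht y
  rw [h x, F.apply_eq_sum f x, map_sum]
  exact Finset.sum_congr rfl fun i _ => by rw [map_mul, hB]

/-- division of the coordinates -/
theorem exists_smul_eq {f : C → K} {c : K} (hc : c ≠ 0) (h : ∀ k, F.B.repr f k / c ∈ A) :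
    ∃ r ∈ F.R, f = c • r := by
  refine ⟨c⁻¹ • f, fun k => ?_, by rw [smul_smul, mul_inv_cancel₀ hc, one_smul]⟩
  rw [map_smul, Finsupp.smul_apply, smul_eq_mul, mul_comm, ← div_eq_mul_inv]
  exact h k

end Frame

end Fermat.Agent.S33.FO
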