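import Fermat.Agent.S33.FO.Frame

/-!
# S33, block FO: the Galois data (definitions only)
-/

set_option autoImplicit false

namespace Fermat.Agent.S33.FO

variable {K : Type} [Field K] {A : ValuationSubring K} {C : Type} [AddCommGroup C]

/-- A family `(s τ, t τ)` (`τ` in "inertia") of ring endomorphisms of `K` and self-maps of `C` for which
the frame is equivariant, and which acts trivially on the residue field of `A`. -/
structure Frame.Inertial (F : Frame K A C) {T : Type} (s : T → K →+* K) (t : T → C → C) : Prop where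
  surj : ∀ τ, Function.Surjective (t τ)
  equiv : ∀ τ i x, F.B i (t τ x) = s τ (F.B i x)
  inert : ∀ τ, ∀ a ∈ A, s τ a - a ∈ A.nonunits

/-- The arithmetic input: `ζ` a primitive `p`-th root of unity which is moved by inertia, and
`1 - z` (`z` any primitive `p`-th root of unity) divides every non unit fixed by
`{τ | s τ ζ = ζ}`  (i.e. `e(K^J / ℚ) ≤ p - 1`). -/
structure Cyclo (A : ValuationSubring K) {T : Type} (s : T → K →+* K) (p : ℕ) (ζ : K) : Prop where
  prime : p.Prime
  prim : IsPrimitiveRoot ζ p
  moves : ∃ τ, s τ ζ ≠ ζ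
  div : ∀ a ∈ A.nonunits, (∀ τ, s τ ζ = ζ → s τ a = a) →
    ∀ z, IsPrimitiveRoot z p → a / (1 - z) ∈ A

end Fermat.Agent.S33.FO
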