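import Fermat.Agent.S33.FO.Cong

/-!
# S33, block FO, leaf FO-3: the inductive step (the indicator of `{g = 1}` lies in `R`)
-/

set_option autoImplicit false

namespace Fermat.Agent.S33.FO.Frame

variable {K : Type} [Field K] {A : ValuationSubring K} {C : Type} [AddCommGroup C]
  {F : Frame K A C} {T : Type} {s : T → K →+* K} {t : T → C → C} {p : ℕ} {ζ : K}

/-- The coordinates of `g - E` are fixed by `J = {τ | s τ ζ = ζ}`: `F.repr_twist` with
`f = f' = g - E` (the values of `g - E` are `0` or `ζ ^ j - 1`). -/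
theorem repr_sub_fixed (hI : F.Inertial s t) (hZ : Cyclo A s p ζ) {E g : C → K}
    (hEg : ∀ x, (E x = 0 ∧ g x = 0) ∨ (E x = 1 ∧ g x ^ p = 1))
    (hEt : ∀ τ x, E (t τ x) = E x) (hgt : ∀ τ x, g (t τ x) = g x) (k : Fin F.n) (τ : T)
    (hτ : s τ ζ = ζ) : s τ (F.B.repr (g - E) k) = F.B.repr (g - E) k := by
  have : NeZero p := ⟨hZ.prime.ne_zero⟩
  refine (F.repr_twist (s τ) (t τ) (hI.surj τ) (hI.equiv τ) (f := g - E) (f' := g - E)
    (fun x => ?_) k).symm
  rw [Pi.sub_apply, Pi.sub_apply, hgt, hEt, map_sub]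
  rcases hEg x with ⟨h1, h2⟩ | ⟨h1, h2⟩
  · rw [h1, h2, map_zero]
  · obtain ⟨j, -, hj⟩ := hZ.prim.eq_pow_of_pow_eq_one h2
    rw [h1, ← hj, map_pow, hτ, map_one]

/-- `g - z E ∈ (1 - z) R`: `g - z E = (g - E) + (1 - z) E`, `hZ.div`, `repr_sub_mem_nonunits`,
`repr_sub_fixed`, `F.exists_smul_eq` (`1 - z ≠ 0` since `z ≠ 1`: `hz.ne_one hZ.prime.one_lt`). -/
theorem exists_factor (hI : F.Inertial s t) (hZ : Cyclo A s p ζ) {E g : C → K}
    (hE : E ∈ F.R) (hg : g ∈ F.R)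
    (hEg : ∀ x, (E x = 0 ∧ g x = 0) ∨ (E x = 1 ∧ g x ^ p = 1))
    (hEt : ∀ τ x, E (t τ x) = E x) (hgt : ∀ τ x, g (t τ x) = g x) {z : K}
    (hz : IsPrimitiveRoot z p) : ∃ r ∈ F.R, g - z • E = (1 - z) • r := by
  have hz1 : 1 - z ≠ 0 := sub_ne_zero.2 (hz.ne_one hZ.prime.one_lt).symm
  obtain ⟨r₀, hr₀, h₀⟩ := F.exists_smul_eq (f := g - E) hz1 fun k =>
    hZ.div _ (repr_sub_mem_nonunits hI hZ hE hg hEg hgt k)
      (fun τ hτ => repr_sub_fixed hI hZ hEg hEt hgt k τ hτ) z hz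
  refine ⟨r₀ + E, F.R.add_mem hr₀ hE, ?_⟩
  rw [smul_add, ← h₀, sub_smul, one_smul]
  abel

/-- Pointwise identity.  `∏_{i<p-1} (1 - ζ^(i+1)) = p` is `IsPrimitiveRoot.prod_one_sub_pow_eq_order`
(see its use in `Fermat/Agent/PT/Local/Hensel.lean`, `v_p_eq`); if `e = 1`, `y ^ p = 1`, `y ≠ 1` then
`y = ζ ^ (i + 1)` for some `i < p - 1` and the product vanishes; if `e = y = 0` the product is
`0 ^ (p - 1) = 0` (`p ≥ 2`). -/
theorem prod_sub_eq (hp : p.Prime) (hζ : IsPrimitiveRoot ζ p) {e y : K}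
    (h : (e = 0 ∧ y = 0) ∨ (e = 1 ∧ y ^ p = 1)) :
    ∏ i ∈ Finset.range (p - 1), (y - ζ ^ (i + 1) * e) =
      (∏ i ∈ Finset.range (p - 1), (1 - ζ ^ (i + 1))) * Set.indicator {u : K | u = 1} 1 y := by
  have : NeZero p := ⟨hp.ne_zero⟩
  have hp2 := hp.two_le
  rcases h with ⟨rfl, rfl⟩ | ⟨rfl, hy⟩
  · rw [Set.indicator_of_notMem (by simp), mul_zero]
    exact Finset.prod_eq_zero (i := 0) (Finset.mem_range.2 (by omega)) (by simp)
  · by_cases hy1 : y = 1
    · subst hy1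
      rw [Set.indicator_of_mem (by simp), Pi.one_apply, mul_one]
      exact Finset.prod_congr rfl fun i _ => by rw [mul_one]
    · rw [Set.indicator_of_notMem (by simpa using hy1), mul_zero]
      obtain ⟨j, hj, rfl⟩ := hζ.eq_pow_of_pow_eq_one hy
      have hj0 : j ≠ 0 := by
        rintro rfl
        exact hy1 (pow_zero _)
      refine Finset.prod_eq_zero (i := j - 1) (Finset.mem_range.2 (by omega)) ?_
      rw [Nat.sub_add_cancel (by omega), mul_one, sub_self]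

/-- **The step.**  For `i < p - 1`, `z = ζ ^ (i + 1)` is primitive (`hZ.prim.pow_of_coprime`):
choose `r i ∈ R` with `g - z E = (1 - z) r i`.  By `prod_sub_eq`, and since
`∏ (1 - ζ^(i+1)) ≠ 0`, the indicator function is `∏ i, r i ∈ R` (`Subring.prod_mem`). -/
theorem step (hI : F.Inertial s t) (hZ : Cyclo A s p ζ) {E g : C → K}
    (hE : E ∈ F.R) (hg : g ∈ F.R)
    (hEg : ∀ x, (E x = 0 ∧ g x = 0) ∨ (E x = 1 ∧ g x ^ p = 1))
    (hEt : ∀ τ x, E (t τ x) = E x) (hgt : ∀ τ x, g (t τ x) = g x) :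
    Set.indicator {x : C | g x = 1} (1 : C → K) ∈ F.R := by
  have hp := hZ.prime
  have hprim : ∀ i ∈ Finset.range (p - 1), IsPrimitiveRoot (ζ ^ (i + 1)) p := by
    intro i hi
    have hi' := Finset.mem_range.1 hi
    refine hZ.prim.pow_of_coprime (i + 1) ?_
    exact ((Nat.Prime.coprime_iff_not_dvd hp).2
      (Nat.not_dvd_of_pos_of_lt (Nat.succ_pos i) (by omega))).symm
  have hex : ∀ i ∈ Finset.range (p - 1), ∃ r ∈ F.R,
      g - (ζ ^ (i + 1)) • E = (1 - ζ ^ (i + 1)) • r := fun i hi =>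
    exists_factor hI hZ hE hg hEg hEt hgt (hprim i hi)
  choose! r hr hr' using hex
  have hne : ∏ i ∈ Finset.range (p - 1), (1 - ζ ^ (i + 1)) ≠ 0 := by
    rw [Finset.prod_ne_zero_iff]
    intro i hi
    exact sub_ne_zero.2 ((hprim i hi).ne_one hp.one_lt).symm
  have key : Set.indicator {x : C | g x = 1} (1 : C → K) = ∏ i ∈ Finset.range (p - 1), r i := by
    funext x
    apply mul_left_cancel₀ hne
    have h1 := prod_sub_eq hp hZ.prim (hEg x)
    have h2 : Set.indicator {u : K | u = 1} (1 : K → K) (g x) =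
        Set.indicator {x : C | g x = 1} (1 : C → K) x := by
      by_cases hx : g x = 1
      · rw [Set.indicator_of_mem (show g x ∈ {u : K | u = 1} from hx),
          Set.indicator_of_mem (show x ∈ {x : C | g x = 1} from hx)]
        rfl
      · rw [Set.indicator_of_notMem (show g x ∉ {u : K | u = 1} from hx),
          Set.indicator_of_notMem (show x ∉ {x : C | g x = 1} from hx)]
    rw [← h2, ← h1, Finset.prod_apply, ← Finset.prod_mul_distrib]
    refine Finset.prod_congr rfl fun i hi => ?_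
    have h3 := congrFun (hr' i hi) x
    simpa using h3
  rw [key]
  exact Subring.prod_mem _ hr

end Fermat.Agent.S33.FO.Frame
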