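import Fermat.Agent.S33.FO.Char
import Fermat.Agent.S33.FO.Step

/-!
# S33, block FO, leaf FO-4: the indicator of the kernel of an inertia invariant character lies in `R`
-/

set_option autoImplicit false

namespace Fermat.Agent.S33.FO.Frame

variable {K : Type} [Field K] {A : ValuationSubring K} {C : Type} [AddCommGroup C]
  {F : Frame K A C} {T : Type} {s : T → K →+* K} {t : T → C → C} {p : ℕ} {ζ : K}

/-- Descending induction.  `E_r := indicator {x | w x ^ p ^ r = 1}`.  `E_N = 1 ∈ R`.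
Given `E_{r+1} ∈ R` apply `step` to `E = E_{r+1}` and `g = w ^ p ^ r * E_{r+1}` (`w ∈ R` by
`char_mem_R`): `g x = 1 ↔ w x ^ p ^ r = 1`.
(Formally: prove `∀ j ≤ N, indicator {x | w x ^ p ^ (N - j) = 1} 1 ∈ R` by induction on `j`.) -/
theorem indicator_pow_mem (hI : F.Inertial s t) (hZ : Cyclo A s p ζ) (w : C → K)
    (hw : ∀ x y, w (x + y) = w x * w y) (N : ℕ) (hwN : ∀ x, w x ^ p ^ N = 1)
    (hwt : ∀ τ x, w (t τ x) = w x) (r : ℕ) (hr : r ≤ N) :
    Set.indicator {x : C | w x ^ p ^ r = 1} (1 : C → K) ∈ F.R := by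
  classical
  have key : ∀ j, j ≤ N → Set.indicator {x : C | w x ^ p ^ (N - j) = 1} (1 : C → K) ∈ F.R := by
    intro j
    induction j with
    | zero =>
      intro _
      have h1 : {x : C | w x ^ p ^ (N - 0) = 1} = Set.univ := by
        ext x
        simp [hwN x]
      rw [h1, Set.indicator_univ]
      exact F.R.one_mem
    | succ j ih =>
      intro hj
      obtain ⟨r, hr1, hr2⟩ : ∃ r, N - (j + 1) = r ∧ N - j = r + 1 := ⟨N - (j + 1), rfl, by omega⟩
      have hE := ih (by omega)
      rw [hr2] at hE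
      rw [hr1]
      obtain ⟨E, hEdef⟩ : ∃ E : C → K,
        E = Set.indicator {x : C | w x ^ p ^ (r + 1) = 1} (1 : C → K) := ⟨_, rfl⟩
      rw [← hEdef] at hE
      have hE1 : ∀ x, w x ^ p ^ (r + 1) = 1 → E x = 1 := by
        intro x hx
        rw [hEdef, Set.indicator_of_mem (by exact hx)]
        rfl
      have hE0 : ∀ x, w x ^ p ^ (r + 1) ≠ 1 → E x = 0 := by
        intro x hx
        rw [hEdef, Set.indicator_of_notMem (by exact hx)]
      have hg : w ^ p ^ r * E ∈ F.R := F.R.mul_mem (F.R.pow_mem (F.char_mem_R w hw) _) hE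
      have hEg : ∀ x, (E x = 0 ∧ (w ^ p ^ r * E) x = 0) ∨ (E x = 1 ∧ (w ^ p ^ r * E) x ^ p = 1) := by
        intro x
        by_cases hx : w x ^ p ^ (r + 1) = 1
        · right
          refine ⟨hE1 x hx, ?_⟩
          rw [Pi.mul_apply, Pi.pow_apply, hE1 x hx, mul_one, ← pow_mul, ← pow_succ]
          exact hx
        · left
          refine ⟨hE0 x hx, ?_⟩
          rw [Pi.mul_apply, hE0 x hx, mul_zero]
      have hEt : ∀ τ x, E (t τ x) = E x := by
        intro τ x
        by_cases hx : w x ^ p ^ (r + 1) = 1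
        · rw [hE1 x hx, hE1 _ (by rw [hwt]; exact hx)]
        · rw [hE0 x hx, hE0 _ (by rw [hwt]; exact hx)]
      have hgt : ∀ τ x, (w ^ p ^ r * E) (t τ x) = (w ^ p ^ r * E) x := by
        intro τ x
        rw [Pi.mul_apply, Pi.mul_apply, Pi.pow_apply, Pi.pow_apply, hwt, hEt]
      have hstep := step hI hZ hE hg hEg hEt hgt
      have hset : {x : C | (w ^ p ^ r * E) x = 1} = {x : C | w x ^ p ^ r = 1} := by
        ext x
        show (w ^ p ^ r * E) x = 1 ↔ w x ^ p ^ r = 1
        rw [Pi.mul_apply, Pi.pow_apply]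
        constructor
        · intro h
          by_cases hx : w x ^ p ^ (r + 1) = 1
          · rwa [hE1 x hx, mul_one] at h
          · rw [hE0 x hx, mul_zero] at h
            exact absurd h zero_ne_one
        · intro h
          have hx : w x ^ p ^ (r + 1) = 1 := by rw [pow_succ, pow_mul, h, one_pow]
          rw [hE1 x hx, mul_one, h]
      rwa [hset] at hstep
  have h := key (N - r) (Nat.sub_le _ _)
  rwa [Nat.sub_sub_self hr] at h

/-- **Abstract form of the lemma (FO).**  `r = 0` in `indicator_pow_mem`, then `F.eval_sub_mem` at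
`x` and `0`: `w 0 = 1` (`w 0 * w 0 = w 0`, `w 0 ≠ 0`), so the indicator is `1` at `0`; if `w x ≠ 1` then
`0 - 1 ∈ A.nonunits`, absurd (`A.valuation (-1) = 1`). -/
theorem char_eq_one (hI : F.Inertial s t) (hZ : Cyclo A s p ζ) (w : C → K)
    (hw : ∀ x y, w (x + y) = w x * w y) (N : ℕ) (hwN : ∀ x, w x ^ p ^ N = 1)
    (hwt : ∀ τ x, w (t τ x) = w x) (x : C) (hx : ∀ k, F.B k x - F.B k 0 ∈ A.nonunits) :
    w x = 1 := by
  classical
  have h := indicator_pow_mem hI hZ w hw N hwN hwt 0 (Nat.zero_le _)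
  have h1 := F.eval_sub_mem h hx
  have hw0 : w 0 = 1 := by
    have h2 : w 0 * w 0 = w 0 := by rw [← hw, add_zero]
    have h3 : w 0 ≠ 0 := by
      intro h0
      have h4 := hwN 0
      rw [h0, zero_pow (pow_ne_zero _ hZ.prime.ne_zero)] at h4
      exact zero_ne_one h4
    exact mul_left_cancel₀ h3 (by rw [h2, mul_one])
  by_contra hne
  rw [Set.indicator_of_notMem (by
      show ¬ (w x ^ p ^ 0 = 1)
      rwa [pow_zero, pow_one]),
    Set.indicator_of_mem (by
      show w 0 ^ p ^ 0 = 1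
      rw [pow_zero, pow_one, hw0]), Pi.one_apply, zero_sub, ValuationSubring.mem_nonunits_iff,
    Valuation.map_neg, map_one] at h1
  exact lt_irrefl _ h1

end Fermat.Agent.S33.FO.Frame
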