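import Mathlib

/-!
# S33, block FO, leaf FO-7 (pure Mathlib): a multiplicative set of functions on a finite set which
separates points spans all functions
-/

set_option autoImplicit false

namespace Fermat.Agent.S33.FO

/-- Proof.  `V := span K S` is closed under multiplication (`Submodule.span_induction₂` or
`Submodule.span_mul_span`) and contains the constants.  For `x ≠ y` choose `f ∈ S` with `f x ≠ f y`;
`(f - f y) / (f x - f y) ∈ V` is `1` at `x` and `0` at `y`.  The product over `y ≠ x` is the indicator
`Pi.single x 1 ∈ V`.  Every function is `∑ x, f x • Pi.single x 1` (`pi_eq_sum_univ` /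
`Finset.univ_sum_single`). -/
theorem span_eq_top_of_separates {K C : Type*} [Field K] [Finite C] (S : Set (C → K))
    (h1 : (1 : C → K) ∈ S) (hmul : ∀ f g, f ∈ S → g ∈ S → f * g ∈ S)
    (hsep : ∀ x y : C, x ≠ y → ∃ f ∈ S, f x ≠ f y) : Submodule.span K S = ⊤ := by
  classical
  cases nonempty_fintype C
  let N : Submonoid (C → K) :=
    { carrier := S, mul_mem' := fun {a b} ha hb => hmul a b ha hb, one_mem' := h1 }
  have hspan : Submodule.span K S = Subalgebra.toSubmodule (Algebra.adjoin K S) := by
    rw [Algebra.adjoin_eq_span]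
    congr 1
    exact (congrArg (fun P : Submonoid (C → K) => (P : Set (C → K))) (Submonoid.closure_eq N)).symm
  rw [hspan]
  have hind : ∀ x : C, (Pi.single x 1 : C → K) ∈ Algebra.adjoin K S := by
    intro x
    have h2 : ∀ y : C, y ≠ x → ∃ e ∈ Algebra.adjoin K S, e x = 1 ∧ e y = 0 := by
      intro y hy
      obtain ⟨f, hf, hne⟩ := hsep x y hy.symm
      refine ⟨(f x - f y)⁻¹ • (f - algebraMap K (C → K) (f y)), ?_, ?_, ?_⟩
      · exact Subalgebra.smul_mem _ (Subalgebra.sub_mem _ (Algebra.subset_adjoin hf)
          (Subalgebra.algebraMap_mem _ _)) _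
      · simp [sub_ne_zero.mpr hne]
      · simp
    choose! e he hex hey using h2
    have hprod : (Pi.single x 1 : C → K) = ∏ y ∈ Finset.univ.erase x, e y := by
      funext z
      rw [Finset.prod_apply]
      by_cases hz : z = x
      · subst hz
        rw [Pi.single_eq_same]
        exact (Finset.prod_eq_one fun y hy => hex y (Finset.ne_of_mem_erase hy)).symm
      · rw [Pi.single_eq_of_ne hz]
        exact (Finset.prod_eq_zero (f := fun c => e c z)
          (Finset.mem_erase.2 ⟨hz, Finset.mem_univ _⟩) (hey z hz)).symm
    rw [hprod]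
    exact Subalgebra.prod_mem _ fun y hy => he y (Finset.ne_of_mem_erase hy)
  rw [eq_top_iff]
  intro f _
  have hf : f = ∑ x, f x • (Pi.single x 1 : C → K) := by
    funext z
    simp [Finset.sum_apply, Pi.single_apply]
  rw [hf]
  exact Submodule.sum_mem _ fun x _ => Submodule.smul_mem _ _ (hind x)

end Fermat.Agent.S33.FO
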