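import Fermat.Agent.S33.FO.Galois
import Fermat.Agent.S33.FO.BasisPID
import Fermat.Agent.S33.FO.Descent
import Fermat.Agent.S33.FO.Separate

/-!
# S33, block FO, leaf FO-8: a frame from an equivariant Hopf lattice over a PID
-/

set_option autoImplicit false

namespace Fermat.Agent.S33.FO

/-- `O ⊆ K0 ⊆ K`, `O` a PID with fraction field `K0` and image in `A`; `K0 ⊇ K^T`.  `M0` a finitely
generated `O`-submodule of `C → K`, consisting of equivariant functions, stable under multiplication and
comultiplication, containing `1` and separating the points of `C`.  Then an `O`-basis of `M0` is a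
frame.

Proof.  `exists_basis_pid` gives `n`, `b : Basis (Fin n) O M0`, independent over `K0`;
`linearIndependent_of_twist` gives independence over `K`; `span_eq_top_of_separates` (with `S = M0`)
gives `span K M0 = ⊤`, and `span K (range b) ⊇ M0` (each element of `M0` is an `O`-combination of `b`:
`b.sum_repr`; `algebraMap_smul`).  `B := Module.Basis.mk _ _`.
KEY LEMMA: for `f ∈ M0`, `B.repr f k = algebraMap O K (b.repr ⟨f, _⟩ k) ∈ A`
(write `f = ∑ (b.repr f k) • b k`, apply `B.repr`, `Module.Basis.mk_repr`/`repr_self`).  All fields of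
`Frame` follow from the key lemma. -/
theorem exists_frame_of_lattice {K : Type} [Field K] (A : ValuationSubring K) {K0 O : Type}
    [Field K0] [Algebra K0 K] [CommRing O] [IsDomain O] [IsPrincipalIdealRing O] [Algebra O K0]
    [IsFractionRing O K0] [Algebra O K] [IsScalarTower O K0 K]
    (hOA : ∀ o : O, algebraMap O K o ∈ A) {C : Type} [AddCommGroup C] [Finite C] {T : Type}
    (s : T → K →+* K) (t : T → C → C) (ht : ∀ τ, Function.Surjective (t τ))
    (hfix : ∀ a : K, (∀ τ, s τ a = a) → ∃ q : K0, algebraMap K0 K q = a)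
    (M0 : Submodule O (C → K)) (hfg : M0.FG) (h1 : (1 : C → K) ∈ M0)
    (hmul : ∀ f g, f ∈ M0 → g ∈ M0 → f * g ∈ M0)
    (hequiv : ∀ f ∈ M0, ∀ τ x, f (t τ x) = s τ (f x))
    (hcomul : ∀ f ∈ M0, ∃ (ι : Type) (_ : Fintype ι) (a c : ι → C → K),
      (∀ l, a l ∈ M0) ∧ (∀ l, c l ∈ M0) ∧ ∀ x y, f (x + y) = ∑ l, a l x * c l y)
    (hsep : ∀ x y : C, x ≠ y → ∃ f ∈ M0, f x ≠ f y) :
    ∃ F : Frame K A C, ∀ k, F.B k ∈ M0 := by
  classical
  obtain ⟨n, b, hbK0⟩ := exists_basis_pid (K0 := K0) M0 hfg
  set bb : Fin n → C → K := fun i => ((b i : M0) : C → K) with hbb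
  have hbK : LinearIndependent K bb :=
    linearIndependent_of_twist s t ht hfix bb (fun i τ x => hequiv _ (b i).2 τ x) hbK0
  have hM0 : ∀ f (hf : f ∈ M0), f = ∑ k, algebraMap O K (b.repr ⟨f, hf⟩ k) • bb k := by
    intro f hf
    have h2 := congrArg (Subtype.val) (b.sum_repr ⟨f, hf⟩)
    rw [AddSubmonoidClass.coe_finsetSum] at h2
    refine (h2.symm : f = _).trans ?_
    refine Finset.sum_congr rfl fun k _ => ?_
    rw [algebraMap_smul]
    rfl
  have hspan : ⊤ ≤ Submodule.span K (Set.range bb) := by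
    rw [← span_eq_top_of_separates (M0 : Set (C → K)) h1 hmul hsep]
    apply Submodule.span_le.2
    intro f hf
    rw [hM0 f hf]
    exact Submodule.sum_mem _ fun k _ => Submodule.smul_mem _ _ (Submodule.subset_span ⟨k, rfl⟩)
  let B : Module.Basis (Fin n) K (C → K) := Module.Basis.mk hbK hspan
  have hB : ∀ k, B k = bb k := fun k => Module.Basis.mk_apply hbK hspan k
  have key : ∀ f (_ : f ∈ M0) k, B.repr f k ∈ A := by
    intro f hf k
    have h3 : B.repr f k = algebraMap O K (b.repr ⟨f, hf⟩ k) := by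
      conv_lhs => rw [hM0 f hf]
      simp only [← hB, map_sum, map_smul, Module.Basis.repr_self, Finsupp.coe_finsetSum,
        Finset.sum_apply, Finsupp.smul_apply, Finsupp.single_apply, smul_eq_mul, mul_ite, mul_one,
        mul_zero, Finset.sum_ite_eq', Finset.mem_univ, if_true]
    rw [h3]
    exact hOA _
  have hBM : ∀ k, B k ∈ M0 := fun k => by rw [hB]; exact (b k).2
  refine ⟨⟨n, B, key 1 h1, fun i j => key _ (hmul _ _ (hBM i) (hBM j)), fun k => ?_⟩, hBM⟩
  obtain ⟨ι, hι, a, c, ha, hc, hac⟩ := hcomul _ (hBM k)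
  exact ⟨ι, hι, a, c, fun l => key _ (ha l), fun l => key _ (hc l), hac⟩

end Fermat.Agent.S33.FO
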