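import Fermat.Agent.S33.FO.M0Frame
import Fermat.Agent.S33.FO.Indicator

/-!
# S33, block FO, leaf FO-13: the lemma (FO) for a Hopf order of functions
-/

set_option autoImplicit false

namespace Fermat.Agent.S33.FO

open Fermat.Agent.S19 Fermat.Agent.S36R

variable {p : ℕ} {A : ValuationSubring Qb} {Q : Type} [AddCommGroup Q] [DistribMulAction GQ Q]
  {H : Subalgebra (Rl p) (Q → Qb)} {C : AddSubgroup Q}

/-- **Lemma (FO).**  `Q` a finite `G_ℚ`-module with a Hopf order of functions `H` over `ℤ_(p)`, `p` odd, `A` a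
place of `ℚ̄` over `p` with inertia group `I`, `C ≤ Q` an `I`-stable subgroup, `w : C → ℚ̄ˣ` a character of
`p`-power order with `w (τ x) = w x` for `τ ∈ I`.  Then `w x = 1` for every `x ∈ C` in the connected
component (`h x ≡ h 0 mod 𝔪_A` for all `h ∈ H`).

Proof: `exists_frame`, a primitive `p`-th root of unity `ζ : Qb`
(`Fermat.Agent.PT.Local.Unram_exists_prim hp.pos`, or `IsAlgClosed`/`HasEnoughRootsOfUnity`), `cyclo_inertia`,
`Frame.char_eq_one`. -/
theorem char_eq_one_of_conn [Finite Q] (hp : p.Prime) (hp2 : p ≠ 2) (hA : A.LiesOverPrime p)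
    (hH : IsFunOrder p Q H) (hC : ∀ τ ∈ A.inertiaSubgroupIn ℚ, ∀ x ∈ C, τ • x ∈ C)
    (w : C → Qb) (hw : ∀ x y, w (x + y) = w x * w y) (N : ℕ) (hwN : ∀ x, w x ^ p ^ N = 1)
    (hwt : ∀ τ x, w (tI A C hC τ x) = w x) (x : C) (hx : ∀ h ∈ H, h x - h 0 ∈ A.nonunits) :
    w x = 1 := by
  obtain ⟨F, hI, hF⟩ := exists_frame hp hA hH hC
  obtain ⟨ζ, hζ⟩ := Fermat.Agent.PT.Local.Unram_exists_prim hp.pos
  exact Frame.char_eq_one hI (cyclo_inertia hp A hA hp2 hζ) w hw N hwN hwt x (hF x hx)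

end Fermat.Agent.S33.FO
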