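import Fermat.Agent.S33.FO.ZetaDiv
import Fermat.Agent.S33.FO.Lattice
import Fermat.Agent.S19.A.RlBasic

/-!
# S33, block FO: the lattice `M0` attached to a Hopf order of functions and an inertia
stable subgroup

`Q` a finite `G_ℚ`-module with a Hopf order of functions `H` (`S19.IsFunOrder p Q H`), `A` a place of
`ℚ̄` over `p`, `I` its inertia group, `C ≤ Q` an `I`-stable subgroup, `O0 = K0L.OI A = A ∩ ℚ̄^I` (a DVR:
`K0L.isDiscreteValuationRing_OI`).  `M0 :=` the `O0`-span of the restrictions to `C` of the elements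
of `H`.
-/

set_option autoImplicit false

namespace Fermat.Agent.S33.FO

open Fermat.Agent.S19 Fermat.Agent.S36R

variable {p : ℕ} (A : ValuationSubring Qb) {Q : Type} [AddCommGroup Q] [DistribMulAction GQ Q]

/-- The action of inertia on an inertia stable subgroup. -/
noncomputable def tI (C : AddSubgroup Q) (hC : ∀ τ ∈ A.inertiaSubgroupIn ℚ, ∀ x ∈ C, τ • x ∈ C) :
    A.inertiaSubgroupIn ℚ → C → C :=
  fun τ x => ⟨τ.1 • x.1, hC τ.1 τ.2 x.1 x.2⟩

@[simp] theorem coe_tI (C : AddSubgroup Q) (hC : ∀ τ ∈ A.inertiaSubgroupIn ℚ, ∀ x ∈ C, τ • x ∈ C)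
    (τ : A.inertiaSubgroupIn ℚ) (x : C) : ((tI A C hC τ x : C) : Q) = τ.1 • (x : Q) := rfl

theorem tI_surjective (C : AddSubgroup Q)
    (hC : ∀ τ ∈ A.inertiaSubgroupIn ℚ, ∀ x ∈ C, τ • x ∈ C) (τ : A.inertiaSubgroupIn ℚ) :
    Function.Surjective (tI A C hC τ) := by
  intro y
  refine ⟨⟨τ.1⁻¹ • y.1, hC _ (inv_mem τ.2) _ y.2⟩, ?_⟩
  apply Subtype.ext
  simp

/-- Restriction of functions to `C`. -/
def resC (C : AddSubgroup Q) (h : Q → Qb) : C → Qb := fun x => h x

@[simp] theorem resC_apply (C : AddSubgroup Q) (h : Q → Qb) (x : C) : resC C h x = h x := rfl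

/-- The lattice. -/
noncomputable def M0 (H : Subalgebra (Rl p) (Q → Qb)) (C : AddSubgroup Q) :
    Submodule (K0L.OI A) (C → Qb) :=
  Submodule.span (K0L.OI A) (resC C '' (H : Set (Q → Qb)))

variable {A} {H : Subalgebra (Rl p) (Q → Qb)} {C : AddSubgroup Q}

theorem resC_mem_M0 {h : Q → Qb} (hh : h ∈ H) : resC C h ∈ M0 A H C :=
  Submodule.subset_span ⟨h, hh, rfl⟩

/-- the scalar action of `O0` on functions, pointwise -/
theorem OI_smul_apply (o : K0L.OI A) (f : C → Qb) (x : C) :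
    (o • f) x = ((o : K0L.KI A) : Qb) * f x := rfl

theorem one_mem_M0 : (1 : C → Qb) ∈ M0 A H C := resC_mem_M0 (h := 1) H.one_mem

end Fermat.Agent.S33.FO
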