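import Fermat.Agent.S33.FO.M0Props
import Fermat.Agent.S36R.K0.BlockL

/-!
# S33, block FO, leaf FO-12: the frame attached to `(Q, H, C)`
-/

set_option autoImplicit false
set_option linter.style.haveILetI false

namespace Fermat.Agent.S33.FO

open Fermat.Agent.S19 Fermat.Agent.S36R

variable {p : ℕ} {A : ValuationSubring Qb} {Q : Type} [AddCommGroup Q] [DistribMulAction GQ Q]
  {H : Subalgebra (Rl p) (Q → Qb)} {C : AddSubgroup Q}

/-- FO-12a.  Let `S` be a finite set with `span (Rl p) S = H.toSubmodule` (`hH.fg`).  Then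
`M0 = span O0 (resC C '' S)`: for `h ∈ H = span (Rl p) S` use `span_induction`; `resC C (r • h) = o • resC C h`
with `o : O0` the image of `r : Rl p` (`(r : ℚ)` is fixed by everything, and
`S19.algebraMap_Rl_mem A hA' r : algebraMap (Rl p) Qb r ∈ A`, where `hA' : (p : Qb)⁻¹ ∉ A` follows from
`hA : (p : Qb) ∈ A.nonunits`). -/
theorem M0_fg (hp : p.Prime) (hA : A.LiesOverPrime p) (hH : IsFunOrder p Q H) :
    (M0 A H C).FG := by
  classical
  haveI : Fact p.Prime := ⟨hp⟩
  have hA' : (p : Qb)⁻¹ ∉ A := by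
    intro hmem
    have h1 : A.valuation (p : Qb) < 1 := (ValuationSubring.mem_nonunits_iff A).1 hA
    have h2 : A.valuation ((p : Qb)⁻¹) ≤ 1 := (A.valuation_le_one_iff _).2 hmem
    have hp0 : (p : Qb) ≠ 0 := by exact_mod_cast hp.ne_zero
    have h3 : A.valuation (p : Qb) * A.valuation ((p : Qb)⁻¹) = 1 := by
      rw [← map_mul, mul_inv_cancel₀ hp0, map_one]
    have h4 : A.valuation (p : Qb) * A.valuation ((p : Qb)⁻¹) < 1 :=
      mul_lt_one_of_nonneg_of_lt_one_left zero_le h1 h2
    rw [h3] at h4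
    exact lt_irrefl _ h4
  obtain ⟨S, hS⟩ := hH.fg
  refine ⟨S.image (resC C), ?_⟩
  rw [Finset.coe_image]
  apply le_antisymm
  · apply Submodule.span_mono
    apply Set.image_mono
    intro h hh
    have : h ∈ Submodule.span (Rl p) (S : Set (Q → Qb)) := Submodule.subset_span hh
    rw [hS] at this
    exact this
  · rw [M0, Submodule.span_le]
    rintro _ ⟨h, hh, rfl⟩
    have hh' : h ∈ Submodule.span (Rl p) (S : Set (Q → Qb)) := by
      rw [hS]
      exact hh
    clear hh
    induction hh' using Submodule.span_induction with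
    | mem h hh => exact Submodule.subset_span ⟨h, hh, rfl⟩
    | zero => exact zero_mem _
    | add h h' _ _ ih ih' => exact add_mem ih ih'
    | smul r h _ ih =>
      let o : K0L.OI A := ⟨⟨algebraMap (Rl p) Qb r,
        (K0L.KI A).algebraMap_mem (r : ℚ)⟩, algebraMap_Rl_mem A hA' r⟩
      have : resC C (r • h) = o • resC C h := by
        funext x
        rw [OI_smul_apply, resC_apply, resC_apply, Pi.smul_apply, Algebra.smul_def]
      show resC C (r • h) ∈ _
      rw [this]
      exact Submodule.smul_mem _ o ih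

/-- FO-12b.  **The frame attached to `(Q, H, C)`.**  Apply `exists_frame_of_lattice` with `O = K0L.OI A`,
`K0 = K0L.KI A` (`IsPrincipalIdealRing` from `K0L.isDiscreteValuationRing_OI A hp hA`), `s = sI A`,
`t = tI A C hC`, `hfix` = definition of the fixed field (`IntermediateField.mem_fixedField_iff`).
`Inertial.inert` is `K0L.inertia_sub_mem_nonunits`. -/
theorem exists_frame [Finite Q] (hp : p.Prime) (hA : A.LiesOverPrime p) (hH : IsFunOrder p Q H)
    (hC : ∀ τ ∈ A.inertiaSubgroupIn ℚ, ∀ x ∈ C, τ • x ∈ C) :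
    ∃ F : Frame Qb A C, F.Inertial (sI A) (tI A C hC) ∧
      ∀ x : C, (∀ h ∈ H, h x - h 0 ∈ A.nonunits) → ∀ k, F.B k x - F.B k 0 ∈ A.nonunits := by
  haveI : IsDiscreteValuationRing (K0L.OI A) := K0L.isDiscreteValuationRing_OI A hp hA
  obtain ⟨F, hF⟩ := exists_frame_of_lattice A (K0 := K0L.KI A) (O := K0L.OI A) (fun o => o.2)
    (sI A) (tI A C hC) (tI_surjective A C hC)
    (fun a ha => ⟨⟨a, (IntermediateField.mem_fixedField_iff _ _).2 fun τ hτ => ha ⟨τ, hτ⟩⟩, rfl⟩)
    (M0 A H C) (M0_fg hp hA hH) one_mem_M0 (fun f g hf hg => mul_mem_M0 hf hg)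
    (fun f hf τ x => M0_equivariant hH hf hC τ x) (fun f hf => M0_comul hH hf)
    (fun x y hxy => M0_separates hH x y hxy)
  refine ⟨F, ⟨tI_surjective A C hC, fun τ i x => M0_equivariant hH (hF i) hC τ x,
    fun τ a ha => K0L.inertia_sub_mem_nonunits A hp hA τ.2 ha⟩, fun x hx k => M0_eval (hF k) hx⟩

end Fermat.Agent.S33.FO
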