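import Fermat.Agent.S33.FO.M0

/-!
# S33, block FO, leaf FO-11: properties of the lattice `M0`
-/

set_option autoImplicit false

namespace Fermat.Agent.S33.FO

open Fermat.Agent.S19 Fermat.Agent.S36R

variable {p : ℕ} {A : ValuationSubring Qb} {Q : Type} [AddCommGroup Q] [DistribMulAction GQ Q]
  {H : Subalgebra (Rl p) (Q → Qb)} {C : AddSubgroup Q}

/-- FO-11a.  `Submodule.span_induction₂` (or twice `span_induction`);
`resC C h * resC C h' = resC C (h * h')`. -/
theorem mul_mem_M0 {f g : C → Qb} (hf : f ∈ M0 A H C) (hg : g ∈ M0 A H C) :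
    f * g ∈ M0 A H C := by
  induction hf using Submodule.span_induction with
  | mem f hf =>
    obtain ⟨h, hh, rfl⟩ := hf
    induction hg using Submodule.span_induction with
    | mem g hg =>
      obtain ⟨h', hh', rfl⟩ := hg
      exact resC_mem_M0 (h := h * h') (H.mul_mem hh hh')
    | zero => rw [mul_zero]; exact zero_mem _
    | add g g' _ _ ih ih' => rw [mul_add]; exact add_mem ih ih'
    | smul o g _ ih => rw [mul_smul_comm]; exact Submodule.smul_mem _ o ih
  | zero => rw [zero_mul]; exact zero_mem _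
  | add f f' _ _ ih ih' => rw [add_mul]; exact add_mem ih ih'
  | smul o f _ ih => rw [smul_mul_assoc]; exact Submodule.smul_mem _ o ih

/-- FO-11b.  `span_induction`; for the generators `hH.equivariant`; for `o • f` use that
`((o : KI A) : Qb)` is fixed by `τ ∈ I` (`(o : KI A).2 ⟨τ, hτ⟩`, or `IntermediateField.mem_fixedField_iff`). -/
theorem M0_equivariant (hH : IsFunOrder p Q H) {f : C → Qb} (hf : f ∈ M0 A H C)
    (hC : ∀ τ ∈ A.inertiaSubgroupIn ℚ, ∀ x ∈ C, τ • x ∈ C) (τ : A.inertiaSubgroupIn ℚ) (x : C) :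
    f (tI A C hC τ x) = sI A τ (f x) := by
  induction hf using Submodule.span_induction with
  | mem f hf =>
    obtain ⟨h, hh, rfl⟩ := hf
    rw [resC_apply, resC_apply, coe_tI, hH.equivariant h hh, sI_apply]
  | zero => simp
  | add f f' _ _ ih ih' => rw [Pi.add_apply, Pi.add_apply, ih, ih', map_add]
  | smul o f _ ih =>
    rw [OI_smul_apply, OI_smul_apply, ih, map_mul]
    congr 1
    rw [sI_apply]
    exact ((IntermediateField.mem_fixedField_iff _ _).1 (o : K0L.KI A).2 τ.1 τ.2).symm

/-- FO-11c.  `span_induction`.  Generators: `hH.comul` (index type `Fin n`).  Sum: index type `ι ⊕ ι'`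
(`Fintype.sum_sum_type`).  `o • f`: replace `a l` by `o • a l`.  Zero: `ι = Empty` / `Fin 0`. -/
theorem M0_comul (hH : IsFunOrder p Q H) {f : C → Qb} (hf : f ∈ M0 A H C) :
    ∃ (ι : Type) (_ : Fintype ι) (a c : ι → C → Qb),
      (∀ l, a l ∈ M0 A H C) ∧ (∀ l, c l ∈ M0 A H C) ∧ ∀ x y, f (x + y) = ∑ l, a l x * c l y := by
  induction hf using Submodule.span_induction with
  | mem f hf =>
    obtain ⟨h, hh, rfl⟩ := hf
    obtain ⟨n, a, c, ha, hc, hac⟩ := hH.comul h hh
    refine ⟨Fin n, inferInstance, fun l => resC C (a l), fun l => resC C (c l),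
      fun l => resC_mem_M0 (ha l), fun l => resC_mem_M0 (hc l), fun x y => ?_⟩
    simp only [resC_apply, AddSubgroup.coe_add]
    exact hac x y
  | zero =>
    exact ⟨Empty, inferInstance, fun l => l.elim, fun l => l.elim, fun l => l.elim,
      fun l => l.elim, fun x y => by simp⟩
  | add f f' _ _ ih ih' =>
    obtain ⟨ι, _, a, c, ha, hc, hac⟩ := ih
    obtain ⟨ι', _, a', c', ha', hc', hac'⟩ := ih'
    refine ⟨ι ⊕ ι', inferInstance, Sum.elim a a', Sum.elim c c', ?_, ?_, fun x y => ?_⟩
    · rintro (l | l)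
      · exact ha l
      · exact ha' l
    · rintro (l | l)
      · exact hc l
      · exact hc' l
    · rw [Pi.add_apply, hac, hac', Fintype.sum_sum_type]
      rfl
  | smul o f _ ih =>
    obtain ⟨ι, _, a, c, ha, hc, hac⟩ := ih
    refine ⟨ι, inferInstance, fun l => o • a l, c, fun l => Submodule.smul_mem _ o (ha l), hc,
      fun x y => ?_⟩
    rw [OI_smul_apply, hac, Finset.mul_sum]
    refine Finset.sum_congr rfl fun l _ => ?_
    show _ = (o • a l) x * c l y
    rw [OI_smul_apply, mul_assoc]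

/-- FO-11d.  `hH.separates`. -/
theorem M0_separates (hH : IsFunOrder p Q H) (x y : C) (hxy : x ≠ y) :
    ∃ f ∈ M0 A H C, f x ≠ f y := by
  by_contra hcon
  push Not at hcon
  apply hxy
  apply Subtype.ext
  exact hH.separates x y fun h hh => hcon (resC C h) (resC_mem_M0 hh)

/-- FO-11e.  `span_induction`; `Frame.nonunits_add`, `Frame.nonunits_mul_left` (`o ∈ A` is `o.2`). -/
theorem M0_eval {f : C → Qb} (hf : f ∈ M0 A H C) {x : C}
    (hx : ∀ h ∈ H, h x - h 0 ∈ A.nonunits) : f x - f 0 ∈ A.nonunits := by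
  induction hf using Submodule.span_induction with
  | mem f hf =>
    obtain ⟨h, hh, rfl⟩ := hf
    exact hx h hh
  | zero =>
    rw [Pi.zero_apply, Pi.zero_apply, sub_zero, ValuationSubring.mem_nonunits_iff, map_zero]
    exact zero_lt_one
  | add f f' _ _ ih ih' =>
    have : (f + f') x - (f + f') 0 = (f x - f 0) + (f' x - f' 0) := by
      simp only [Pi.add_apply]; ring
    rw [this]
    exact Frame.nonunits_add ih ih'
  | smul o f _ ih =>
    rw [OI_smul_apply, OI_smul_apply, ← mul_sub]
    exact Frame.nonunits_mul_left o.2 ih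

end Fermat.Agent.S33.FO
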