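import Fermat.Agent.S33.FO.Lemma
import Fermat.Agent.S33.FO.Conn

/-!
# S33, block FO, leaf FO-15: the corollary used by block ALG

`Q` finite flat at `p` (odd), killed by `p ^ N`.  Every inertia stable subgroup `C` of `(I - 1) Q` satisfies
`C = (I - 1) C`.
-/

set_option autoImplicit false

namespace Fermat.Agent.S33.FO

open Fermat.Agent.S19 Fermat.Agent.S36R

variable {p : ℕ} {A : ValuationSubring Qb} {Q : Type} [AddCommGroup Q] [DistribMulAction GQ Q]

/-- **Corollary (i) of (FO), general form**: `C` an inertia stable subgroup of the connected component.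

Proof.  Let `D := (augI A C).addSubgroupOf C : AddSubgroup C`, `G := C ⧸ D` (finite).  Suppose `x ∈ C`,
`x ∉ augI A C`; then `(x : G) ≠ 0`, so there is `φ : Multiplicative G →* Qbˣ` with `φ x ≠ 1`
(`CommGroup.exists_apply_ne_one_of_hasEnoughRootsOfUnity`; `Qb` is algebraically closed of characteristic `0`, the
instance `HasEnoughRootsOfUnity Qb n` needs `NeZero n`, `n = Monoid.exponent _ ≠ 0` as `G` is finite).
`w y := φ (ofAdd (mk y))` is multiplicative, `w y ^ p ^ N = w (p ^ N • y) = 1`, and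
`w (τ y) = w y` because `τ y - y ∈ augI A C`.  `char_eq_one_of_conn` gives `w x = 1`: contradiction. -/
theorem le_augI_of_conn [Finite Q] (hp : p.Prime) (hp2 : p ≠ 2) (hA : A.LiesOverPrime p)
    {H : Subalgebra (Rl p) (Q → Qb)} (hH : IsFunOrder p Q H) (N : ℕ) (hN : ∀ x : Q, p ^ N • x = 0)
    (C : AddSubgroup Q) (hC : ∀ τ ∈ A.inertiaSubgroupIn ℚ, ∀ x ∈ C, τ • x ∈ C)
    (hconn : ∀ x ∈ C, ∀ h ∈ H, h x - h 0 ∈ A.nonunits) : C ≤ augI A C := by
  intro x hxC
  by_contra hx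
  have hne : (Multiplicative.ofAdd
      (QuotientAddGroup.mk (⟨x, hxC⟩ : C) : C ⧸ (augI A C).addSubgroupOf C)) ≠ 1 := by
    intro h
    have h' : (QuotientAddGroup.mk (⟨x, hxC⟩ : C) : C ⧸ (augI A C).addSubgroupOf C) = 0 := h
    rw [QuotientAddGroup.eq_zero_iff] at h'
    exact hx h'
  have hexp : NeZero (Monoid.exponent (Multiplicative (C ⧸ (augI A C).addSubgroupOf C))) :=
    ⟨Monoid.exponent_ne_zero_of_finite⟩
  have hexp' : NeZero
      ((Monoid.exponent (Multiplicative (C ⧸ (augI A C).addSubgroupOf C)) : ℕ) : ℚ) :=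
    ⟨Nat.cast_ne_zero.mpr hexp.out⟩
  obtain ⟨φ, hφ⟩ := CommGroup.exists_apply_ne_one_of_hasEnoughRootsOfUnity
    (Multiplicative (C ⧸ (augI A C).addSubgroupOf C)) Qb hne
  have hw : ∀ y z : C,
      ((φ (Multiplicative.ofAdd
        (QuotientAddGroup.mk (y + z) : C ⧸ (augI A C).addSubgroupOf C)) : Qbˣ) : Qb) =
      ((φ (Multiplicative.ofAdd
        (QuotientAddGroup.mk y : C ⧸ (augI A C).addSubgroupOf C)) : Qbˣ) : Qb) *
      ((φ (Multiplicative.ofAdd
        (QuotientAddGroup.mk z : C ⧸ (augI A C).addSubgroupOf C)) : Qbˣ) : Qb) := by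
    intro y z
    rw [QuotientAddGroup.mk_add, ofAdd_add, map_mul, Units.val_mul]
  have hwN : ∀ y : C,
      ((φ (Multiplicative.ofAdd
        (QuotientAddGroup.mk y : C ⧸ (augI A C).addSubgroupOf C)) : Qbˣ) : Qb) ^ p ^ N = 1 := by
    intro y
    rw [← Units.val_pow_eq_pow_val, ← map_pow, ← ofAdd_nsmul, ← QuotientAddGroup.mk_nsmul]
    have h0 : p ^ N • y = 0 := Subtype.ext (by simpa using hN (y : Q))
    rw [h0, QuotientAddGroup.mk_zero, ofAdd_zero, map_one, Units.val_one]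
  have hwt : ∀ (τ : A.inertiaSubgroupIn ℚ) (y : C),
      ((φ (Multiplicative.ofAdd
        (QuotientAddGroup.mk (tI A C hC τ y) : C ⧸ (augI A C).addSubgroupOf C)) : Qbˣ) : Qb) =
      ((φ (Multiplicative.ofAdd
        (QuotientAddGroup.mk y : C ⧸ (augI A C).addSubgroupOf C)) : Qbˣ) : Qb) := by
    intro τ y
    have h1 : (QuotientAddGroup.mk (tI A C hC τ y) : C ⧸ (augI A C).addSubgroupOf C) =
        QuotientAddGroup.mk y := by
      rw [eq_comm, QuotientAddGroup.eq, AddSubgroup.mem_addSubgroupOf]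
      refine AddSubgroup.subset_closure ⟨τ.1, τ.2, y.1, y.2, ?_⟩
      simp [sub_eq_neg_add]
    rw [h1]
  have h1 := char_eq_one_of_conn hp hp2 hA hH hC
    (fun y : C => ((φ (Multiplicative.ofAdd
        (QuotientAddGroup.mk y : C ⧸ (augI A C).addSubgroupOf C)) : Qbˣ) : Qb))
    hw N hwN hwt ⟨x, hxC⟩ (hconn x hxC)
  exact hφ (Units.ext h1)

/-- **Corollary (i) of (FO)** (contract with block ALG). -/
theorem le_augI [Finite Q] (hp : p.Prime) (hp2 : p ≠ 2) (hA : A.LiesOverPrime p)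
    (hQ : IsFunFlat p Q) (N : ℕ) (hN : ∀ x : Q, p ^ N • x = 0)
    (C : AddSubgroup Q) (hC : ∀ τ ∈ A.inertiaSubgroupIn ℚ, ∀ x ∈ C, τ • x ∈ C)
    (hCQ : C ≤ augI A (⊤ : AddSubgroup Q)) : C ≤ augI A C := by
  obtain ⟨H, hH⟩ := hQ
  exact le_augI_of_conn hp hp2 hA hH N hN C hC
    fun x hx => conn_of_mem_augI hp hA hH (hCQ hx)

end Fermat.Agent.S33.FO
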