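import Fermat.Agent.S33.FO.Galois
import Fermat.Agent.S36R.K0.DVRL
import Fermat.Agent.PT.Local.Hensel
import Fermat.Agent.S19.Defs

/-!
# S33, block FO, leaf FO-9: the arithmetic input `Cyclo` for the inertia group of a place of `ℚ̄`
over an odd prime `p`

Available (all sorry-free):
* `Fermat/Agent/S36R/K0/BlockL.lean`, section `bare` (namespace `Fermat.Agent.S36R.K0L`):
  `div_mem'` (`x ∈ fixedField I`, `x ∈ A.nonunits` ⟹ `x / p ∈ A`), `inertia_valuation`
  (`v (σ x) = v x`), `inertia_sub_mem_nonunits`, `inertia_map_mem_iff`;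
* `Fermat/Agent/PT/Local/Hensel.lean` (namespace `Fermat.Agent.PT.Local`; use the place
  `P : Plc := ⟨A, p, hp, hA⟩`, `P.v = A.valuation`): `v_p_eq : v p = v (1 - ζ) ^ (p - 1)`,
  `v_one_sub_zeta_pow`.
-/

set_option autoImplicit false

namespace Fermat.Agent.S33.FO

open Fermat.Agent.S19 Fermat.Agent.S36R

/-- The inertia group acting on `ℚ̄` (as ring endomorphisms). -/
noncomputable def sI (A : ValuationSubring Qb) : A.inertiaSubgroupIn ℚ → Qb →+* Qb :=
  fun τ => RingHomClass.toRingHom τ.1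

@[simp] theorem sI_apply (A : ValuationSubring Qb) (τ : A.inertiaSubgroupIn ℚ) (x : Qb) :
    sI A τ x = τ.1 x := rfl

variable {p : ℕ} (hp : p.Prime) (A : ValuationSubring Qb) (hA : A.LiesOverPrime p)

include hp hA

/-- FO-9a.  `v (1 - z) ^ (p - 1) = v p < 1`. -/
theorem one_sub_mem_nonunits {z : Qb} (hz : IsPrimitiveRoot z p) : 1 - z ∈ A.nonunits := by
  rw [ValuationSubring.mem_nonunits_iff]
  have h1 : A.valuation (p : Qb) = A.valuation (1 - z) ^ (p - 1) :=
    Fermat.Agent.PT.Local.v_p_eq ⟨A, p, hp, hA⟩ hp hz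
  have h2 : A.valuation (p : Qb) < 1 := (ValuationSubring.mem_nonunits_iff A).1 hA
  by_contra h
  have h3 : 1 ≤ A.valuation (1 - z) := not_lt.1 h
  have h4 : 1 ≤ A.valuation (1 - z) ^ (p - 1) := one_le_pow₀ h3
  rw [← h1] at h4
  exact absurd h2 (not_lt.2 h4)

/-- FO-9b.  Otherwise `1 - ζ ∈ fixedField I` is a non unit, so `v (1 - ζ) ≤ v p = v (1 - ζ) ^ (p - 1)`
(`K0L.div_mem'`, `v_p_eq`), impossible for `p - 1 ≥ 2` as `0 < v (1 - ζ) < 1`. -/
theorem exists_moves (hp2 : p ≠ 2) {ζ : Qb} (hζ : IsPrimitiveRoot ζ p) :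
    ∃ τ ∈ A.inertiaSubgroupIn ℚ, τ ζ ≠ ζ := by
  by_contra hcon
  push Not at hcon
  have hfix : (1 - ζ) ∈ IntermediateField.fixedField (A.inertiaSubgroupIn ℚ) := by
    rw [IntermediateField.mem_fixedField_iff]
    intro τ hτ
    rw [map_sub, map_one, hcon τ hτ]
  have hnu := one_sub_mem_nonunits hp A hA hζ
  have hdiv := K0L.div_mem' A hp hA hfix hnu
  have h1 : A.valuation (p : Qb) = A.valuation (1 - ζ) ^ (p - 1) :=
    Fermat.Agent.PT.Local.v_p_eq ⟨A, p, hp, hA⟩ hp hζ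
  have hlt : A.valuation (1 - ζ) < 1 := (ValuationSubring.mem_nonunits_iff A).1 hnu
  have hne : A.valuation (1 - ζ) ≠ 0 := by
    rw [Valuation.ne_zero_iff]
    exact sub_ne_zero.2 (hζ.ne_one hp.one_lt).symm
  have hpos : 0 < A.valuation (1 - ζ) := zero_lt_iff.2 hne
  rw [← A.valuation_le_one_iff, map_div₀, h1, div_le_one₀ (pow_pos hpos _)] at hdiv
  have hp3 : 1 < p - 1 := by have := hp.two_le; omega
  exact absurd hdiv (not_le.2 (pow_lt_self_of_lt_one₀ hpos hlt hp3))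

end Fermat.Agent.S33.FO
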