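import Fermat.Agent.S33.FO.Zeta

/-!
# S33, block FO, leaf FO-10: `1 - z` divides the non units of the fixed field of `I ∩ ker (χ mod p)`

See the header of `Fermat/Agent/S33/FO/Zeta.lean` for the available lemmas.
-/

set_option autoImplicit false

namespace Fermat.Agent.S33.FO

open Fermat.Agent.S19 Fermat.Agent.S36R

variable {p : ℕ} (hp : p.Prime) (A : ValuationSubring Qb) (hA : A.LiesOverPrime p)

include hp hA

/-- FO-10.  Let `I = A.inertiaSubgroupIn ℚ`, `S := {y ∈ primitiveRoots p Qb | ∃ τ ∈ I, τ ζ = y}` (a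
`Finset`, `ζ ∈ S`, `S.card ≤ p - 1` by `IsPrimitiveRoot.card_primitiveRoots`, `Nat.totient_prime`).  For
`y ∈ S` choose `τ_y ∈ I` with `τ_y ζ = y`, and put `N := ∏ y ∈ S, τ_y a`.  For `σ ∈ I`:
`σ (τ_y a) = τ_{σ y} a` because `τ_{σ y}⁻¹ σ τ_y ∈ I` fixes `ζ`, hence `a` (`hfix`); `y ↦ σ y` is a bijection
of `S`; so `σ N = N` (`Finset.prod_bij`), i.e. `N ∈ fixedField I`.  `v N = v a ^ S.card < 1`
(`K0L.inertia_valuation`), so `v a ^ S.card ≤ v p` (`K0L.div_mem'`), and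
`v a ^ (p - 1) ≤ v a ^ S.card ≤ v p = v (1 - z) ^ (p - 1)` (`v_p_eq`), so `v a ≤ v (1 - z)`
(`pow_le_pow_iff_left₀`). -/
theorem div_one_sub_mem {ζ z : Qb} (hζ : IsPrimitiveRoot ζ p) (hz : IsPrimitiveRoot z p) {a : Qb}
    (ha : a ∈ A.nonunits) (hfix : ∀ τ ∈ A.inertiaSubgroupIn ℚ, τ ζ = ζ → τ a = a) :
    a / (1 - z) ∈ A := by
  classical
  set I := A.inertiaSubgroupIn ℚ with hI
  set S : Finset Qb := (primitiveRoots p Qb).filter (fun y => ∃ τ ∈ I, τ ζ = y) with hS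
  have hmemS : ∀ y, y ∈ S ↔ ∃ τ ∈ I, τ ζ = y := by
    intro y
    rw [hS, Finset.mem_filter, mem_primitiveRoots hp.pos]
    constructor
    · exact fun h => h.2
    · rintro ⟨τ, hτ, rfl⟩
      exact ⟨hζ.map_of_injective τ.injective, τ, hτ, rfl⟩
  have hζS : ζ ∈ S := (hmemS ζ).2 ⟨1, I.one_mem, rfl⟩
  have hcard : S.card ≤ p - 1 := by
    have h1 : S.card ≤ (primitiveRoots p Qb).card := Finset.card_filter_le _ _
    rwa [hζ.card_primitiveRoots, Nat.totient_prime hp] at h1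
  have hcard0 : S.card ≠ 0 := Finset.card_ne_zero_of_mem hζS
  let t : Qb → GQ := fun y => if h : ∃ τ ∈ I, τ ζ = y then h.choose else 1
  have ht : ∀ y ∈ S, t y ∈ I ∧ t y ζ = y := by
    intro y hy
    have h := (hmemS y).1 hy
    have : t y = h.choose := dif_pos h
    rw [this]
    exact h.choose_spec
  set N : Qb := ∏ y ∈ S, t y a with hN
  have hσS : ∀ σ ∈ I, ∀ y ∈ S, σ y ∈ S := by
    intro σ hσ y hy
    obtain ⟨τ, hτ, rfl⟩ := (hmemS y).1 hy
    exact (hmemS _).2 ⟨σ * τ, I.mul_mem hσ hτ, rfl⟩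
  have hkey : ∀ σ ∈ I, ∀ y ∈ S, σ (t y a) = t (σ y) a := by
    intro σ hσ y hy
    have h1 := ht y hy
    have h2 := ht (σ y) (hσS σ hσ y hy)
    have h3 : ((t (σ y))⁻¹ * σ * t y) a = a := by
      apply hfix _ (I.mul_mem (I.mul_mem (I.inv_mem h2.1) hσ) h1.1)
      show (t (σ y))⁻¹ (σ (t y ζ)) = ζ
      rw [h1.2]
      have : (t (σ y))⁻¹ (t (σ y) ζ) = ζ := (t (σ y)).symm_apply_apply ζ
      rwa [h2.2] at this
    have h4 : (t (σ y)) (((t (σ y))⁻¹ * σ * t y) a) = σ (t y a) := by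
      show (t (σ y)) ((t (σ y))⁻¹ (σ (t y a))) = σ (t y a)
      exact (t (σ y)).apply_symm_apply _
    rw [← h4, h3]
  have hNfix : N ∈ IntermediateField.fixedField I := by
    rw [IntermediateField.mem_fixedField_iff]
    intro σ hσ
    rw [hN, map_prod]
    refine Finset.prod_bij (fun y _ => σ y) (fun y hy => hσS σ hσ y hy)
      (fun y _ y' _ h => σ.injective h) (fun y hy => ?_) (fun y hy => hkey σ hσ y hy)
    exact ⟨σ⁻¹ y, hσS σ⁻¹ (I.inv_mem hσ) y hy, σ.apply_symm_apply y⟩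
  have hvN : A.valuation N = A.valuation a ^ S.card := by
    rw [hN, map_prod, Finset.prod_congr rfl (g := fun _ => A.valuation a)
      (fun y hy => K0L.inertia_valuation A hp hA (ht y hy).1 a)]
    simp
  have hva : A.valuation a < 1 := (ValuationSubring.mem_nonunits_iff A).1 ha
  have hNnu : N ∈ A.nonunits := by
    rw [ValuationSubring.mem_nonunits_iff, hvN]
    exact pow_lt_one₀ zero_le' hva hcard0
  have hdiv := K0L.div_mem' A hp hA hNfix hNnu
  have h1 : A.valuation (p : Qb) = A.valuation (1 - z) ^ (p - 1) :=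
    Fermat.Agent.PT.Local.v_p_eq ⟨A, p, hp, hA⟩ hp hz
  have hne : A.valuation (1 - z) ≠ 0 := by
    rw [Valuation.ne_zero_iff]
    exact sub_ne_zero.2 (hz.ne_one hp.one_lt).symm
  have hpos : 0 < A.valuation (1 - z) := zero_lt_iff.2 hne
  rw [← A.valuation_le_one_iff, map_div₀, h1, div_le_one₀ (pow_pos hpos _), hvN] at hdiv
  have h2 : A.valuation a ^ (p - 1) ≤ A.valuation a ^ S.card :=
    pow_le_pow_of_le_one zero_le' hva.le hcard
  have hp1 : p - 1 ≠ 0 := by have := hp.two_le; omega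
  have h3 : A.valuation a ≤ A.valuation (1 - z) :=
    (pow_le_pow_iff_left₀ zero_le' zero_le' hp1).1 (h2.trans hdiv)
  rw [← A.valuation_le_one_iff, map_div₀, div_le_one₀ hpos]
  exact h3

theorem cyclo_inertia (hp2 : p ≠ 2) {ζ : Qb} (hζ : IsPrimitiveRoot ζ p) :
    Cyclo A (sI A) p ζ where
  prime := hp
  prim := hζ
  moves := by
    obtain ⟨τ, hτ, h⟩ := exists_moves hp A hA hp2 hζ
    exact ⟨⟨τ, hτ⟩, h⟩
  div := fun _ ha hfix _ hz =>
    div_one_sub_mem hp A hA hζ hz ha fun τ hτ h => hfix ⟨τ, hτ⟩ h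

end Fermat.Agent.S33.FO
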